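import Mathlib
import Fermat.Agent.LT.T6.Spec
import Fermat.Agent.LT.T6.SpecArch

/-!
# Row LT, tower T6, leaf T6.27 `ArchEllForm` (helper842): SPEC

OFF-MAIN.  Definitions and Props only.  `LT/T6/Spec.lean` v3 and `LT/T6/SpecArch.lean` are
byte-identical copies (helper22) and are NOT touched.

The leaf: for an ELLIPTIC `γ = z_u k_θ ∈ GL₂(ℝ)` (`sin θ ≠ 0`) the orbital integral of
`IsArchMatch` (cut-off form) is a ONE-dimensional integral, and the twisted orbital integral at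
`δ = z_{u/2} k_{θ/2}` is a TWO-dimensional integral:

* `O_γ(f)  = (2π c / m) ∫_{τ>0} (f(Y(u,θ,τ)) + f(Y(u,-θ,τ))) sinh τ dτ`,
  `Y(u,θ,τ) = a_τ⁻¹ z_u k_θ a_τ = e^u [[cos θ, -e^{-τ} sin θ], [e^τ sin θ, cos θ]]`;
* `TO_δ(φ) = (4π C ν(U(2)) / m) ∫_{τ>0} ∫_b φ(X(u,θ,τ,b)) cosh²(2b) sinh τ db dτ`,
  `X(u,θ,τ,b) = a_{-b} Y(u/2,θ/2,τ) a_{-b}`, `a_b = [[cosh b, -i sinh b], [i sinh b, cosh b]]`.

Here `c` is the constant of the polar decomposition of the Haar measure `μ` of `GL₂(ℝ)`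
(`PolarRC μ c`, leaf T6.23), `C` the constant of the decomposition
`GL₂(ℂ) = GL₂(ℝ) A_q U(2)` of the Haar measure `μ'` (`HakPolarC μ' ν C`, from `HakC` (leaf
T6.26) and `PolarRC` with `C = c c'`), and `m` the constant of the Haar measure `μT` of the
centraliser `T = {z_v k_α}` (`IsTorNorm`).  All measures are measures for the BOREL
σ-algebra, as in `IsArchMatch`.

Evaluations (file `EllAlg.lean`): `det Y = e^{2u}`, `rhoR Y = 1 + 2 sin²θ sinh²τ`,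
`holPart Y = e^u (cos θ + i cosh τ sin θ)`,
`rhoC X = cosh(4b) (1 + s² sinh²τ) + s² sinh²τ`, `s = sin(θ/2)`.
-/

set_option autoImplicit false

open scoped Matrix
open MeasureTheory

noncomputable section

namespace Fermat.Agent.LT.T6.H842

/-! ## 1. The standard elements -/

/-- The matrix of `z_u k_θ`: the scalar `e^u` times the rotation of angle `θ`. -/
def zkMat (u θ : ℝ) : Matrix (Fin 2) (Fin 2) ℝ :=
  !![Real.exp u * Real.cos θ, -(Real.exp u * Real.sin θ);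
     Real.exp u * Real.sin θ, Real.exp u * Real.cos θ]

theorem det_zkMat (u θ : ℝ) : (zkMat u θ).det = Real.exp u ^ 2 := by
  rw [zkMat, Matrix.det_fin_two_of]
  have := Real.sin_sq_add_cos_sq θ
  linear_combination (Real.exp u ^ 2) * this

/-- `z_u k_θ ∈ GL₂(ℝ)`. -/
def zk (u θ : ℝ) : GL (Fin 2) ℝ :=
  Matrix.GeneralLinearGroup.mkOfDetNeZero (zkMat u θ)
    (by rw [det_zkMat]; exact pow_ne_zero _ (Real.exp_pos u).ne')

/-- The matrix of `a_τ = diag(e^{τ/2}, e^{-τ/2})`. -/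
def aMat (τ : ℝ) : Matrix (Fin 2) (Fin 2) ℝ :=
  !![Real.exp (τ / 2), 0; 0, Real.exp (-(τ / 2))]

theorem det_aMat (τ : ℝ) : (aMat τ).det = 1 := by
  rw [aMat, Matrix.det_fin_two_of, mul_zero, sub_zero, ← Real.exp_add]
  simp

/-- `a_τ = diag(e^{τ/2}, e^{-τ/2}) ∈ GL₂(ℝ)`. -/
def aR (τ : ℝ) : GL (Fin 2) ℝ :=
  Matrix.GeneralLinearGroup.mkOfDetNeZero (aMat τ) (by rw [det_aMat]; exact one_ne_zero)

/-- The matrix of `w = diag(1, -1)`. -/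
def wMat : Matrix (Fin 2) (Fin 2) ℝ := !![1, 0; 0, -1]

theorem det_wMat : wMat.det = -1 := by
  rw [wMat, Matrix.det_fin_two_of]; norm_num

/-- `w = diag(1, -1) ∈ GL₂(ℝ)`. -/
def wR : GL (Fin 2) ℝ :=
  Matrix.GeneralLinearGroup.mkOfDetNeZero wMat (by rw [det_wMat]; norm_num)

/-- `Y(u, θ, τ) = a_τ⁻¹ z_u k_θ a_τ`. -/
def ellY (u θ τ : ℝ) : GL (Fin 2) ℝ := (aR τ)⁻¹ * zk u θ * aR τ

/-- The inclusion `GL₂(ℝ) → GL₂(ℂ)`. -/
def incl : GL (Fin 2) ℝ →* GL (Fin 2) ℂ := Matrix.GeneralLinearGroup.map (algebraMap ℝ ℂ)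

/-- The matrix of `a_b = [[cosh b, -i sinh b], [i sinh b, cosh b]]`. -/
def aqMat (b : ℝ) : Matrix (Fin 2) (Fin 2) ℂ :=
  !![(Real.cosh b : ℂ), -(Complex.I * (Real.sinh b : ℂ));
     Complex.I * (Real.sinh b : ℂ), (Real.cosh b : ℂ)]

theorem det_aqMat (b : ℝ) : (aqMat b).det = 1 := by
  rw [aqMat, Matrix.det_fin_two_of]
  have h : ((Real.cosh b : ℂ)) ^ 2 - ((Real.sinh b : ℂ)) ^ 2 = 1 := by
    have h0 : Real.cosh b ^ 2 - Real.sinh b ^ 2 = 1 := by rw [Real.cosh_sq]; ring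
    exact_mod_cast h0
  linear_combination h + ((Real.sinh b : ℂ)) ^ 2 * Complex.I_sq

/-- `a_b ∈ GL₂(ℂ)` (the geodesic through `1` orthogonal to `H² ⊂ H³`). -/
def aq (b : ℝ) : GL (Fin 2) ℂ :=
  Matrix.GeneralLinearGroup.mkOfDetNeZero (aqMat b) (by rw [det_aqMat]; exact one_ne_zero)

/-- `X(u, θ, τ, b) = a_{-b} Y(u/2, θ/2, τ) a_{-b}`. -/
def ellX (u θ τ b : ℝ) : GL (Fin 2) ℂ := aq (-b) * incl (ellY (u / 2) (θ / 2) τ) * aq (-b)

/-! ## 2. Parameter spaces and measures -/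

/-- The measure `dv ⊗ dα|_{(0, 2π]}` on the parameters `(v, α)` of the torus `T = {z_v k_α}`. -/
def torMeas : Measure (ℝ × ℝ) :=
  (volume : Measure ℝ).prod ((volume : Measure ℝ).restrict (Set.Ioc 0 (2 * Real.pi)))

/-- The measure `sinh τ dτ|_{τ > 0}` . -/
def sinhMeas : Measure ℝ :=
  ((volume : Measure ℝ).restrict (Set.Ioi 0)).withDensity (fun τ => ENNReal.ofReal (Real.sinh τ))

/-- The measure `sinh τ dτ|_{τ > 0} ⊗ dβ|_{(0, 2π]}` on the parameters `(τ, β)`. -/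
def radMeas : Measure (ℝ × ℝ) :=
  sinhMeas.prod ((volume : Measure ℝ).restrict (Set.Ioc 0 (2 * Real.pi)))

/-- The measure `cosh²(2b) db` on `ℝ`. -/
def fermiMeas : Measure ℝ :=
  (volume : Measure ℝ).withDensity (fun b => ENNReal.ofReal (Real.cosh (2 * b) ^ 2))

/-- Polar coordinates on `GL₂(ℝ)`: `((τ, β), (v, α)) ↦ z_v k_α a_τ k_β ε` (`ε = 1` or `w`). -/
def polarMap (ε : GL (Fin 2) ℝ) (p : (ℝ × ℝ) × (ℝ × ℝ)) : GL (Fin 2) ℝ :=
  zk p.2.1 p.2.2 * aR p.1.1 * zk 0 p.1.2 * ε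

/-- The map `(h, b, k) ↦ h a_b k`, `GL₂(ℝ) × ℝ × GL₂(ℂ) → GL₂(ℂ)`. -/
def hakMap (p : GL (Fin 2) ℝ × ℝ × GL (Fin 2) ℂ) : GL (Fin 2) ℂ :=
  incl p.1 * aq p.2.1 * p.2.2

/-- The fused coordinates on `GL₂(ℂ)`:
`(((τ, β), (b, k)), (v, α)) ↦ (z_v k_α a_τ k_β ε) a_b k`. -/
def hakPolarMap (ε : GL (Fin 2) ℝ) (p : ((ℝ × ℝ) × (ℝ × GL (Fin 2) ℂ)) × (ℝ × ℝ)) :
    GL (Fin 2) ℂ :=
  incl (polarMap ε (p.1.1, p.2)) * aq p.1.2.1 * p.1.2.2

/-! ## 3. The hypotheses (integration formulas, leaves T6.23 and T6.26) -/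

/-- **Polar decomposition of the measure `μ` of `GL₂(ℝ)`** with constant `c > 0`:
`∫ H dμ = c ∫_{τ>0} ∫_{β∈(0,2π]} ∫_v ∫_{α∈(0,2π]} (H(z_v k_α a_τ k_β) + H(z_v k_α a_τ k_β w))
  sinh τ`, as an equality of measures. -/
def PolarRC (μ : @Measure (GL (Fin 2) ℝ) (borel _)) (c : ℝ) : Prop :=
  0 < c ∧
    μ = ENNReal.ofReal c •
      (@Measure.map _ _ _ (borel _) (polarMap 1) (radMeas.prod torMeas) +
        @Measure.map _ _ _ (borel _) (polarMap wR) (radMeas.prod torMeas))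

/-- The measure `ν` of `GL₂(ℂ)` is finite and carried by `U(2)`. -/
def IsU2Meas (ν : @Measure (GL (Fin 2) ℂ) (borel _)) : Prop :=
  @IsFiniteMeasure _ (borel _) ν ∧ ν {k | ¬ InU2 k} = 0

/-- **The decomposition `GL₂(ℂ) = GL₂(ℝ) A_q U(2)` of the measure `μ'`** with constant
`c' > 0`: `∫ H dμ' = c' ∫_{GL₂(ℝ)} ∫_b ∫_{U(2)} H(h a_b k) cosh²(2b) dν(k) db dμ(h)`, as an
equality of measures. -/
def HakC (μ : @Measure (GL (Fin 2) ℝ) (borel _)) (μ' ν : @Measure (GL (Fin 2) ℂ) (borel _))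
    (c' : ℝ) : Prop :=
  letI : MeasurableSpace (GL (Fin 2) ℝ) := borel _
  letI : MeasurableSpace (GL (Fin 2) ℂ) := borel _
  0 < c' ∧ IsU2Meas ν ∧
    μ' = ENNReal.ofReal c' • Measure.map hakMap (μ.prod (fermiMeas.prod ν))

/-- **The fused decomposition of the measure `μ'` of `GL₂(ℂ)`** with constant `C > 0`
(`= HakC` composed with `PolarRC`, `C = c c'`). -/
def HakPolarC (μ' ν : @Measure (GL (Fin 2) ℂ) (borel _)) (C : ℝ) : Prop :=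
  letI : MeasurableSpace (GL (Fin 2) ℂ) := borel _
  0 < C ∧ IsU2Meas ν ∧
    μ' = ENNReal.ofReal C •
      (Measure.map (hakPolarMap 1) ((radMeas.prod (fermiMeas.prod ν)).prod torMeas) +
        Measure.map (hakPolarMap wR) ((radMeas.prod (fermiMeas.prod ν)).prod torMeas))

/-! ## 4. The centraliser of `z_u k_θ` -/

/-- `z_v k_α` as an element of the centraliser of `z_u k_θ`. -/
def torIota (u θ : ℝ) (p : ℝ × ℝ) : twCentSub (MonoidHom.id (GL (Fin 2) ℝ)) (zk u θ) :=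
  ⟨zk p.1 p.2, by
    change (zk p.1 p.2)⁻¹ * zk u θ * zk p.1 p.2 = zk u θ
    rw [mul_assoc, inv_mul_eq_iff_eq_mul]
    apply Units.ext
    change zkMat u θ * zkMat p.1 p.2 = zkMat p.1 p.2 * zkMat u θ
    ext i j
    fin_cases i <;> fin_cases j <;> simp [zkMat, Matrix.mul_apply, Fin.sum_univ_two] <;> ring⟩

/-- The Haar measure `μT` of the centraliser of `z_u k_θ` is `m` times the image of
`dv ⊗ dα|_{(0,2π]}` under `(v, α) ↦ z_v k_α`. -/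
def IsTorNorm (u θ : ℝ)
    (μT : @Measure (twCentSub (MonoidHom.id (GL (Fin 2) ℝ)) (zk u θ)) (borel _)) (m : ℝ) :
    Prop :=
  0 < m ∧ μT = ENNReal.ofReal m • @Measure.map _ _ _ (borel _) (torIota u θ) torMeas

/-- **Normalisation of the Haar measures of the elliptic tori**: every Haar measure of the
centraliser of `z_u k_θ` (`sin θ ≠ 0`) is a positive multiple of the image of
`dv ⊗ dα|_{(0,2π]}`. -/
def TorusHaarC : Prop :=
  ∀ u θ : ℝ, Real.sin θ ≠ 0 →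
    ∀ μT : @Measure (twCentSub (MonoidHom.id (GL (Fin 2) ℝ)) (zk u θ)) (borel _),
      @Measure.IsHaarMeasure _ _ _ (borel _) μT → ∃ m : ℝ, IsTorNorm u θ μT m

/-! ## 5. The conclusions -/

/-- `β` is a cut-off function for the image of the centraliser `T` of `γ` under `j`:
continuous, `≥ 0`, `∫_T β(j(t) x) dμT(t) = 1` for all `x` (the shape of `IsArchMatch`). -/
def IsCutoff {Γ : Type} [Group Γ] [TopologicalSpace Γ] (γ : GL (Fin 2) ℝ)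
    (μT : @Measure (twCentSub (MonoidHom.id (GL (Fin 2) ℝ)) γ) (borel _))
    (j : GL (Fin 2) ℝ →* Γ) (β : Γ → ℝ) : Prop :=
  Continuous β ∧ (∀ x, 0 ≤ β x) ∧
    ∀ x : Γ, @integral _ _ _ _ (borel _) μT
      (fun t : twCentSub (MonoidHom.id (GL (Fin 2) ℝ)) γ => β (j (t : GL (Fin 2) ℝ) * x)) = 1

/-- The one-dimensional integral of the real side:
`∫_{τ>0} (f(Y(u,θ,τ)) + f(Y(u,-θ,τ))) sinh τ dτ`. -/
def ellIntR (f : GL (Fin 2) ℝ → ℂ) (u θ : ℝ) : ℂ :=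
  ∫ τ in Set.Ioi (0 : ℝ), (f (ellY u θ τ) + f (ellY u (-θ) τ)) * (Real.sinh τ : ℂ)

/-- The two-dimensional integral of the twisted side:
`∫_{τ>0} ∫_b φ(X(u,θ,τ,b)) cosh²(2b) sinh τ db dτ`. -/
def ellIntC (φ : GL (Fin 2) ℂ → ℂ) (u θ : ℝ) : ℂ :=
  ∫ τ in Set.Ioi (0 : ℝ), ∫ b : ℝ,
    φ (ellX u θ τ b) * ((Real.cosh (2 * b) ^ 2 * Real.sinh τ : ℝ) : ℂ)

/-- **T6.27, real side (standard form).**  `γ = z_u k_θ`, `sin θ ≠ 0`; `f` continuous with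
compact support, invariant under conjugation by `SO(2)` (every test function of weight `n`
is); `β` a cut-off function.  Then `x ↦ f(x⁻¹ γ x) β(x)` is integrable and
`∫ f(x⁻¹ γ x) β(x) dμ(x) = (2π c / m) ∫_{τ>0} (f(Y(u,θ,τ)) + f(Y(u,-θ,τ))) sinh τ dτ`. -/
def EllRealC : Prop :=
  ∀ (μ : @Measure (GL (Fin 2) ℝ) (borel _)) (c : ℝ), PolarRC μ c →
    ∀ u θ : ℝ, Real.sin θ ≠ 0 →
    ∀ (μT : @Measure (twCentSub (MonoidHom.id (GL (Fin 2) ℝ)) (zk u θ)) (borel _)) (m : ℝ),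
      IsTorNorm u θ μT m →
    ∀ f : GL (Fin 2) ℝ → ℂ, Continuous f → HasCompactSupport f →
      (∀ k g : GL (Fin 2) ℝ, InSO2 k → f (k⁻¹ * g * k) = f g) →
    ∀ β : GL (Fin 2) ℝ → ℝ, IsCutoff (zk u θ) μT (MonoidHom.id _) β →
      @Integrable _ _ _ _ (borel _) (fun x : GL (Fin 2) ℝ => f (x⁻¹ * zk u θ * x) * (β x : ℂ)) μ ∧
      @integral _ _ _ _ (borel _) μ (fun x : GL (Fin 2) ℝ => f (x⁻¹ * zk u θ * x) * (β x : ℂ))
        = ((2 * Real.pi * c / m : ℝ) : ℂ) * ellIntR f u θ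

/-- **T6.27, twisted side (standard form).**  `γ = z_u k_θ`, `sin θ ≠ 0`,
`δ = z_{u/2} k_{θ/2}`; `φ` continuous with compact support, bi-`U(2)`-invariant; `β'` a
cut-off function for the image of `T` in `GL₂(ℂ)`.  Then `x ↦ φ(x⁻¹ δ x̄) β'(x)` is integrable
and `∫ φ(x⁻¹ δ x̄) β'(x) dμ'(x)
  = (4π C ν(U(2)) / m) ∫_{τ>0} ∫_b φ(X(u,θ,τ,b)) cosh²(2b) sinh τ db dτ`. -/
def EllTwC : Prop :=
  ∀ (μ' ν : @Measure (GL (Fin 2) ℂ) (borel _)) (C : ℝ), HakPolarC μ' ν C →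
    ∀ u θ : ℝ, Real.sin θ ≠ 0 →
    ∀ (μT : @Measure (twCentSub (MonoidHom.id (GL (Fin 2) ℝ)) (zk u θ)) (borel _)) (m : ℝ),
      IsTorNorm u θ μT m →
    ∀ φ : GL (Fin 2) ℂ → ℂ, Continuous φ → HasCompactSupport φ →
      (∀ k g : GL (Fin 2) ℂ, InU2 k → φ (k * g) = φ g) →
      (∀ k g : GL (Fin 2) ℂ, InU2 k → φ (g * k) = φ g) →
    ∀ β' : GL (Fin 2) ℂ → ℝ, IsCutoff (zk u θ) μT incl β' →
      @Integrable _ _ _ _ (borel _)
        (fun x : GL (Fin 2) ℂ =>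
          φ (x⁻¹ * incl (zk (u / 2) (θ / 2)) * glAut (starRingAut : ℂ ≃+* ℂ) x) * (β' x : ℂ))
        μ' ∧
      @integral _ _ _ _ (borel _) μ'
        (fun x : GL (Fin 2) ℂ =>
          φ (x⁻¹ * incl (zk (u / 2) (θ / 2)) * glAut (starRingAut : ℂ ≃+* ℂ) x) * (β' x : ℂ))
        = ((4 * Real.pi * C * (ν Set.univ).toReal / m : ℝ) : ℂ) * ellIntC φ u θ

/-- **The fusion** `PolarRC μ c → HakC μ μ' ν c' → HakPolarC μ' ν (c c')`. -/
def HakFuseC : Prop :=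
  ∀ (μ : @Measure (GL (Fin 2) ℝ) (borel _)) (μ' ν : @Measure (GL (Fin 2) ℂ) (borel _))
    (c c' : ℝ), PolarRC μ c → HakC μ μ' ν c' → HakPolarC μ' ν (c * c')

end Fermat.Agent.LT.T6.H842

end
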