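import Mathlib
import Fermat.Agent.LT.T6.H842.EllSpec

/-!
# Row LT, tower T6, leaf T6.27 (helper842): the algebra of the standard elements

OFF-MAIN.  Group identities between `z_u k_θ`, `a_τ`, `w`, `a_b`, and the evaluations of
`det`, `rhoR`, `holPart`, `rhoC` on `Y(u,θ,τ)` and `X(u,θ,τ,b)`.
-/

set_option autoImplicit false

open scoped Matrix
open MeasureTheory

noncomputable section

namespace Fermat.Agent.LT.T6.H842

/-! ## 1. Coercions -/

@[simp] theorem coe_zk842 (u θ : ℝ) : ((zk u θ : GL (Fin 2) ℝ) : Matrix (Fin 2) (Fin 2) ℝ)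
    = zkMat u θ := rfl

@[simp] theorem coe_aR842 (τ : ℝ) : ((aR τ : GL (Fin 2) ℝ) : Matrix (Fin 2) (Fin 2) ℝ)
    = aMat τ := rfl

@[simp] theorem coe_wR842 : ((wR : GL (Fin 2) ℝ) : Matrix (Fin 2) (Fin 2) ℝ) = wMat := rfl

@[simp] theorem coe_aq842 (b : ℝ) : ((aq b : GL (Fin 2) ℂ) : Matrix (Fin 2) (Fin 2) ℂ)
    = aqMat b := rfl

theorem coe_incl842 (g : GL (Fin 2) ℝ) :
    ((incl g : GL (Fin 2) ℂ) : Matrix (Fin 2) (Fin 2) ℂ)
      = (g : Matrix (Fin 2) (Fin 2) ℝ).map (algebraMap ℝ ℂ) := rfl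

theorem coe_incl_apply842 (g : GL (Fin 2) ℝ) (i j : Fin 2) :
    ((incl g : GL (Fin 2) ℂ) : Matrix (Fin 2) (Fin 2) ℂ) i j
      = (((g : Matrix (Fin 2) (Fin 2) ℝ) i j : ℝ) : ℂ) := rfl

/-! ## 2. The torus `{z_u k_θ}` -/

theorem zkMat_mul842 (u θ v α : ℝ) : zkMat u θ * zkMat v α = zkMat (u + v) (θ + α) := by
  ext i j
  fin_cases i <;> fin_cases j <;>
    simp [zkMat, Matrix.mul_apply, Fin.sum_univ_two, Real.exp_add, Real.cos_add, Real.sin_add] <;>
    ring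

theorem zk_mul842 (u θ v α : ℝ) : zk u θ * zk v α = zk (u + v) (θ + α) :=
  Units.ext (zkMat_mul842 u θ v α)

theorem zkMat_zero842 : zkMat 0 0 = 1 := by
  ext i j
  fin_cases i <;> fin_cases j <;> simp [zkMat]

theorem zk_zero842 : zk 0 0 = 1 := Units.ext zkMat_zero842

theorem zk_inv842 (u θ : ℝ) : (zk u θ)⁻¹ = zk (-u) (-θ) := by
  rw [inv_eq_iff_mul_eq_one, zk_mul842]
  simp [zk_zero842]

theorem zk_comm842 (u θ v α : ℝ) : zk u θ * zk v α = zk v α * zk u θ := by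
  rw [zk_mul842, zk_mul842, add_comm u v, add_comm θ α]

theorem zk_add_two_pi842 (u θ : ℝ) : zk u (θ + 2 * Real.pi) = zk u θ := by
  apply Units.ext
  simp [zkMat]

theorem zk_add_int_mul_two_pi842 (u θ : ℝ) (n : ℤ) :
    zk u (θ + n * (2 * Real.pi)) = zk u θ := by
  apply Units.ext
  simp [zkMat]

theorem inSO2_zk842 (β : ℝ) : InSO2 (zk 0 β) := by
  constructor
  · ext i j
    have := Real.sin_sq_add_cos_sq β
    fin_cases i <;> fin_cases j <;>
      simp [zkMat, Matrix.mul_apply, Fin.sum_univ_two] <;> nlinarith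
  · rw [coe_zk842, det_zkMat]; simp

/-! ## 3. `w` and `a_τ` -/

theorem wR_mul_self842 : wR * wR = 1 := by
  apply Units.ext
  ext i j
  fin_cases i <;> fin_cases j <;> simp [wMat, Matrix.mul_apply, Fin.sum_univ_two]

theorem wR_inv842 : wR⁻¹ = wR := inv_eq_of_mul_eq_one_left wR_mul_self842

theorem wR_zk_wR842 (u θ : ℝ) : wR * zk u θ * wR = zk u (-θ) := by
  apply Units.ext
  ext i j
  fin_cases i <;> fin_cases j <;> simp [wMat, zkMat, Matrix.mul_apply, Fin.sum_univ_two]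

theorem wR_aR842 (τ : ℝ) : wR * aR τ = aR τ * wR := by
  apply Units.ext
  ext i j
  fin_cases i <;> fin_cases j <;> simp [wMat, aMat, Matrix.mul_apply, Fin.sum_univ_two]

theorem aMat_mul842 (τ σ : ℝ) : aMat τ * aMat σ = aMat (τ + σ) := by
  ext i j
  fin_cases i <;> fin_cases j <;>
    simp [aMat, Matrix.mul_apply, Fin.sum_univ_two, ← Real.exp_add] <;> ring_nf

theorem aR_mul842 (τ σ : ℝ) : aR τ * aR σ = aR (τ + σ) := Units.ext (aMat_mul842 τ σ)

theorem aR_zero842 : aR 0 = 1 := by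
  apply Units.ext
  ext i j
  fin_cases i <;> fin_cases j <;> simp [aMat]

theorem aR_inv842 (τ : ℝ) : (aR τ)⁻¹ = aR (-τ) := by
  rw [inv_eq_iff_mul_eq_one, aR_mul842]
  simp [aR_zero842]

/-! ## 4. `Y(u,θ,τ)` -/

/-- The matrix of `Y(u,θ,τ)`. -/
theorem coe_ellY842 (u θ τ : ℝ) :
    ((ellY u θ τ : GL (Fin 2) ℝ) : Matrix (Fin 2) (Fin 2) ℝ)
      = !![Real.exp u * Real.cos θ, -(Real.exp u * (Real.exp (-τ) * Real.sin θ));
           Real.exp u * (Real.exp τ * Real.sin θ), Real.exp u * Real.cos θ] := by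
  have h1 : Real.exp (-(τ / 2)) * Real.exp (-(τ / 2)) = Real.exp (-τ) := by
    rw [← Real.exp_add]; ring_nf
  have h2 : Real.exp (τ / 2) * Real.exp (τ / 2) = Real.exp τ := by
    rw [← Real.exp_add]; ring_nf
  have h3 : Real.exp (-(τ / 2)) * Real.exp (τ / 2) = 1 := by
    rw [← Real.exp_add]; simp
  have ha : aMat (-τ) = !![Real.exp (-(τ / 2)), 0; 0, Real.exp (τ / 2)] := by
    simp [aMat, neg_div]
  rw [ellY, aR_inv842]
  change aMat (-τ) * zkMat u θ * aMat τ = _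
  rw [ha]
  ext i j
  fin_cases i <;> fin_cases j <;>
    simp [aMat, zkMat, Matrix.mul_apply, Fin.sum_univ_two]
  · linear_combination (Real.exp u * Real.cos θ) * h3
  · linear_combination (Real.exp u * Real.sin θ) * h1
  · linear_combination (Real.exp u * Real.sin θ) * h2
  · linear_combination (Real.exp u * Real.cos θ) * h3

theorem ellY_wR842 (u θ τ : ℝ) : wR * ellY u θ τ * wR = ellY u (-θ) τ := by
  have h : wR * (aR τ)⁻¹ = (aR τ)⁻¹ * wR := by
    rw [aR_inv842, wR_aR842]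
  rw [ellY, ellY, ← wR_zk_wR842]
  calc wR * ((aR τ)⁻¹ * zk u θ * aR τ) * wR
      = (wR * (aR τ)⁻¹) * zk u θ * (aR τ * wR) := by simp only [mul_assoc]
    _ = ((aR τ)⁻¹ * wR) * zk u θ * (wR * aR τ) := by rw [h, wR_aR842]
    _ = (aR τ)⁻¹ * (wR * zk u θ * wR) * aR τ := by simp only [mul_assoc]

theorem det_ellY842 (u θ τ : ℝ) :
    ((ellY u θ τ : GL (Fin 2) ℝ) : Matrix (Fin 2) (Fin 2) ℝ).det = Real.exp u ^ 2 := by
  rw [coe_ellY842, Matrix.det_fin_two_of]
  have h1 : Real.exp (-τ) * Real.exp τ = 1 := by rw [← Real.exp_add]; simp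
  have := Real.sin_sq_add_cos_sq θ
  linear_combination (Real.exp u ^ 2) * this + (Real.exp u ^ 2 * Real.sin θ ^ 2) * h1

/-- `rhoR (Y(u,θ,τ)) = 1 + 2 sin²θ sinh²τ`. -/
theorem rhoR_ellY842 (u θ τ : ℝ) :
    rhoR (ellY u θ τ) = 1 + 2 * Real.sin θ ^ 2 * Real.sinh τ ^ 2 := by
  have hu : (0 : ℝ) < Real.exp u ^ 2 := pow_pos (Real.exp_pos u) 2
  rw [rhoR, det_ellY842, abs_of_pos hu, div_eq_iff (by positivity)]
  rw [coe_ellY842]
  have h1 : Real.exp (-τ) * Real.exp τ = 1 := by rw [← Real.exp_add]; simp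
  have hs : Real.sinh τ = (Real.exp τ - Real.exp (-τ)) / 2 := Real.sinh_eq τ
  have := Real.sin_sq_add_cos_sq θ
  simp only [Matrix.trace_fin_two, Matrix.mul_apply, Fin.sum_univ_two, Matrix.transpose_apply,
    Matrix.of_apply, Matrix.cons_val', Matrix.cons_val_zero, Matrix.cons_val_one,
    Matrix.empty_val', Matrix.cons_val_fin_one]
  rw [hs]
  linear_combination (2 * Real.exp u ^ 2) * this + (2 * Real.exp u ^ 2 * Real.sin θ ^ 2) * h1

/-- `holPart (Y(u,θ,τ)) = e^u (cos θ + i cosh τ sin θ)`. -/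
theorem holPart_ellY842 (u θ τ : ℝ) :
    holPart (ellY u θ τ)
      = (Real.exp u : ℂ) * ((Real.cos θ : ℂ) + Complex.I * ((Real.cosh τ * Real.sin θ : ℝ) : ℂ)) := by
  rw [holPart, coe_ellY842]
  have hc : Real.cosh τ = (Real.exp τ + Real.exp (-τ)) / 2 := Real.cosh_eq τ
  simp only [Matrix.of_apply, Matrix.cons_val', Matrix.cons_val_zero, Matrix.cons_val_one,
    Matrix.empty_val', Matrix.cons_val_fin_one]
  rw [hc]
  push_cast
  ring

end Fermat.Agent.LT.T6.H842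

end
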