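import Mathlib
import Fermat.Agent.LT.T6.H842.EllAlg
import Fermat.Agent.LT.T6.H634.EllCut2

/-!
# Row LT, tower T6, leaf T6.27 (helper842): conjugation of an elliptic element to `z_u k_θ`

OFF-MAIN.  `exists_conj842`: every `γ ∈ GL₂(ℝ)` with `disc γ < 0` is `h (z_u k_θ) h⁻¹` with
`u = log (det γ) / 2` and `θ = thetaOf634 γ = arccos (tr γ / (2 √(det γ)))`.
-/

set_option autoImplicit false

open scoped Matrix
open MeasureTheory

noncomputable section

namespace Fermat.Agent.LT.T6.H842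

open Fermat.Agent.LT.T6.H634

/-- The data of an elliptic element: `e^u cos θ = tr γ / 2`, `(e^u sin θ)² = det γ - (tr γ / 2)²`,
`e^u sin θ > 0`, `e^{2u} = det γ`. -/
theorem ell_data842 (γ : GL (Fin 2) ℝ) (hγ : disc γ < 0) :
    Real.exp (Real.log (γ : Matrix (Fin 2) (Fin 2) ℝ).det / 2) * Real.cos (thetaOf634 γ)
        = (γ : Matrix (Fin 2) (Fin 2) ℝ).trace / 2 ∧
      0 < Real.exp (Real.log (γ : Matrix (Fin 2) (Fin 2) ℝ).det / 2) *
        Real.sin (thetaOf634 γ) ∧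
      (Real.exp (Real.log (γ : Matrix (Fin 2) (Fin 2) ℝ).det / 2) *
        Real.sin (thetaOf634 γ)) ^ 2
          = (γ : Matrix (Fin 2) (Fin 2) ℝ).det - ((γ : Matrix (Fin 2) (Fin 2) ℝ).trace / 2) ^ 2 ∧
      Real.exp (Real.log (γ : Matrix (Fin 2) (Fin 2) ℝ).det / 2) ^ 2
          = (γ : Matrix (Fin 2) (Fin 2) ℝ).det := by
  have hD := det_pos_of_disc_neg634 γ hγ
  set D := (γ : Matrix (Fin 2) (Fin 2) ℝ).det with hDdef
  set t := (γ : Matrix (Fin 2) (Fin 2) ℝ).trace with htdef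
  have hs : 0 < Real.sqrt D := Real.sqrt_pos.mpr hD
  have hsq : Real.sqrt D ^ 2 = D := Real.sq_sqrt hD.le
  have hE : Real.exp (Real.log D / 2) = Real.sqrt D := by
    have h1 : Real.exp (Real.log D / 2) ^ 2 = D := by
      rw [← Real.exp_nat_mul]
      have : ((2 : ℕ) : ℝ) * (Real.log D / 2) = Real.log D := by push_cast; ring
      rw [this, Real.exp_log hD]
    have h2 : 0 ≤ Real.exp (Real.log D / 2) := (Real.exp_pos _).le
    rw [← Real.sqrt_sq h2, h1]
  have hlt : t ^ 2 < 4 * D := by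
    have : t ^ 2 - 4 * D < 0 := hγ
    linarith
  have hq : (t / (2 * Real.sqrt D)) ^ 2 < 1 := by
    rw [div_pow, div_lt_one (by positivity)]
    nlinarith
  have habs : |t / (2 * Real.sqrt D)| < 1 := (sq_lt_one_iff_abs_lt_one _).mp hq
  have h1 : -1 < t / (2 * Real.sqrt D) := (abs_lt.mp habs).1
  have h2 : t / (2 * Real.sqrt D) < 1 := (abs_lt.mp habs).2
  have hcos : Real.cos (thetaOf634 γ) = t / (2 * Real.sqrt D) := by
    unfold thetaOf634
    exact Real.cos_arccos h1.le h2.le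
  have hsin : Real.sin (thetaOf634 γ) = Real.sqrt (1 - (t / (2 * Real.sqrt D)) ^ 2) := by
    unfold thetaOf634
    exact Real.sin_arccos _
  have hpos : 0 < 1 - (t / (2 * Real.sqrt D)) ^ 2 := by linarith
  have hsinpos : 0 < Real.sin (thetaOf634 γ) := by rw [hsin]; exact Real.sqrt_pos.mpr hpos
  have hsinsq : Real.sin (thetaOf634 γ) ^ 2 = 1 - (t / (2 * Real.sqrt D)) ^ 2 := by
    rw [hsin, Real.sq_sqrt hpos.le]
  rw [hE]
  refine ⟨?_, mul_pos hs hsinpos, ?_, hsq⟩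
  · rw [hcos]; field_simp
  · rw [mul_pow, hsinsq, hsq]
    have hD0 : D ≠ 0 := hD.ne'
    have : (t / (2 * Real.sqrt D)) ^ 2 = t ^ 2 / (4 * D) := by
      rw [div_pow, mul_pow, hsq]; norm_num
    rw [this]
    field_simp
    ring

/-- **Every elliptic element is conjugate to `z_u k_θ`** (`u = log det / 2`,
`θ = thetaOf634 γ`). -/
theorem exists_conj842 (γ : GL (Fin 2) ℝ) (hγ : disc γ < 0) :
    ∃ h : GL (Fin 2) ℝ,
      γ = h * zk (Real.log (γ : Matrix (Fin 2) (Fin 2) ℝ).det / 2) (thetaOf634 γ) * h⁻¹ := by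
  obtain ⟨hp, hspos, hs2, -⟩ := ell_data842 γ hγ
  set u := Real.log (γ : Matrix (Fin 2) (Fin 2) ℝ).det / 2 with hu
  set θ := thetaOf634 γ with hθ
  set s := Real.exp u * Real.sin θ with hs
  set a := (γ : Matrix (Fin 2) (Fin 2) ℝ) 0 0 with ha
  set b := (γ : Matrix (Fin 2) (Fin 2) ℝ) 0 1 with hb
  set c := (γ : Matrix (Fin 2) (Fin 2) ℝ) 1 0 with hc
  set d := (γ : Matrix (Fin 2) (Fin 2) ℝ) 1 1 with hd
  have htr : (γ : Matrix (Fin 2) (Fin 2) ℝ).trace = a + d := by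
    rw [Matrix.trace_fin_two]
  have hdet : (γ : Matrix (Fin 2) (Fin 2) ℝ).det = a * d - b * c := by
    rw [Matrix.det_fin_two]
  rw [htr] at hp hs2
  rw [hdet] at hs2
  have hs0 : s ≠ 0 := hspos.ne'
  have hc0 : c ≠ 0 := by
    intro h0
    rw [h0] at hs2
    have : s ^ 2 = -((a - d) / 2) ^ 2 := by rw [hs2]; ring
    nlinarith [sq_nonneg ((a - d) / 2), sq_pos_of_pos hspos]
  have hdetM : (!![1, (a - d) / (2 * s); 0, c / s] : Matrix (Fin 2) (Fin 2) ℝ).det ≠ 0 := by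
    rw [Matrix.det_fin_two_of]
    simp only [one_mul, mul_zero, sub_zero]
    exact div_ne_zero hc0 hs0
  refine ⟨Matrix.GeneralLinearGroup.mkOfDetNeZero _ hdetM, ?_⟩
  rw [eq_mul_inv_iff_mul_eq]
  apply Units.ext
  rw [Units.val_mul, Units.val_mul]
  change (γ : Matrix (Fin 2) (Fin 2) ℝ) * !![1, (a - d) / (2 * s); 0, c / s]
    = !![1, (a - d) / (2 * s); 0, c / s] * zkMat u θ
  have hγm : (γ : Matrix (Fin 2) (Fin 2) ℝ) = !![a, b; c, d] := by
    ext i j
    fin_cases i <;> fin_cases j <;> rfl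
  have hzm : zkMat u θ = !![(a + d) / 2, -s; s, (a + d) / 2] := by
    unfold zkMat
    rw [hp]
  rw [hγm, hzm]
  ext i j
  fin_cases i <;> fin_cases j <;>
    simp only [Matrix.mul_apply, Fin.sum_univ_two, Matrix.of_apply, Matrix.cons_val',
      Matrix.cons_val_zero, Matrix.cons_val_one, Matrix.empty_val', Matrix.cons_val_fin_one,
      Fin.zero_eta, Fin.mk_one, Fin.isValue]
  · field_simp
    ring
  · field_simp
    linear_combination (4 : ℝ) * hs2
  · field_simp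
    ring
  · field_simp
    ring

end Fermat.Agent.LT.T6.H842

end
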