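import Mathlib
import Fermat.Agent.LT.T6.H842.EllAlg

/-!
# Row LT, tower T6, leaf T6.27 (helper842): topology of the standard maps

OFF-MAIN.  `GL₂(ℝ)`, `GL₂(ℂ)` are second countable and locally compact; a map into `GL₂` is
continuous as soon as its matrix is; the standard maps `zk`, `aR`, `aq`, `incl`, `glAut`,
`polarMap`, `hakPolarMap` are continuous.
-/

set_option autoImplicit false

open scoped Matrix
open MeasureTheory

noncomputable section

namespace Fermat.Agent.LT.T6.H842

/-! ## 1. `GL₂` as a topological space -/

theorem secondCountable_matrix842 (K : Type*) [TopologicalSpace K] [SecondCountableTopology K] :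
    SecondCountableTopology (Matrix (Fin 2) (Fin 2) K) :=
  inferInstanceAs (SecondCountableTopology (Fin 2 → Fin 2 → K))

theorem locallyCompact_matrix842 (K : Type*) [TopologicalSpace K] [LocallyCompactSpace K] :
    LocallyCompactSpace (Matrix (Fin 2) (Fin 2) K) :=
  inferInstanceAs (LocallyCompactSpace (Fin 2 → Fin 2 → K))

theorem secondCountable_GL842 (K : Type*) [CommRing K] [TopologicalSpace K]
    [SecondCountableTopology K] : SecondCountableTopology (GL (Fin 2) K) := by
  have := secondCountable_matrix842 K
  have : SecondCountableTopology (Matrix (Fin 2) (Fin 2) K)ᵐᵒᵖ :=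
    (MulOpposite.opHomeomorph (M := (Matrix (Fin 2) (Fin 2) K))).symm.secondCountableTopology
  exact Units.isEmbedding_embedProduct.secondCountableTopology

theorem locallyCompact_GR842 : LocallyCompactSpace (GL (Fin 2) ℝ) := by
  have := locallyCompact_matrix842 ℝ
  infer_instance

theorem locallyCompact_GC842 : LocallyCompactSpace (GL (Fin 2) ℂ) := by
  have := locallyCompact_matrix842 ℂ
  infer_instance

/-- A map into `GL₂(K)` (`K` a topological field) is continuous if its matrix is. -/
theorem continuous_toGL842 {K : Type*} [Field K] [TopologicalSpace K] [IsTopologicalRing K]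
    [ContinuousInv₀ K] {X : Type*} [TopologicalSpace X] (f : X → GL (Fin 2) K)
    (hf : Continuous fun x => ((f x : GL (Fin 2) K) : Matrix (Fin 2) (Fin 2) K)) :
    Continuous f := by
  rw [Units.continuous_iff]
  refine ⟨hf, ?_⟩
  have h1 : (fun x => ((f x)⁻¹ : GL (Fin 2) K).val)
      = fun x => ((f x : Matrix (Fin 2) (Fin 2) K).det)⁻¹ •
          (f x : Matrix (Fin 2) (Fin 2) K).adjugate := by
    funext x
    rw [Matrix.coe_units_inv, Matrix.inv_def, Ring.inverse_eq_inv']
  rw [h1]
  refine Continuous.smul (Continuous.inv₀ hf.matrix_det fun x => ?_) hf.matrix_adjugate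
  exact (Matrix.isUnits_det_units (f x)).ne_zero

/-- The entries are continuous on `GL₂`. -/
theorem continuous_entry842 {K : Type*} [CommRing K] [TopologicalSpace K] (i j : Fin 2) :
    Continuous fun g : GL (Fin 2) K => (g : Matrix (Fin 2) (Fin 2) K) i j :=
  Continuous.matrix_elem (A := fun g : GL (Fin 2) K => (g : Matrix (Fin 2) (Fin 2) K))
    Units.continuous_val i j

/-! ## 2. The standard maps -/

theorem continuous_zkMat842 : Continuous fun p : ℝ × ℝ => zkMat p.1 p.2 := by
  refine continuous_matrix fun i j => ?_
  fin_cases i <;> fin_cases j <;> simp [zkMat] <;> fun_prop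

theorem continuous_zk842 : Continuous fun p : ℝ × ℝ => zk p.1 p.2 :=
  continuous_toGL842 _ continuous_zkMat842

theorem continuous_aR842 : Continuous aR := by
  refine continuous_toGL842 _ (continuous_matrix fun i j => ?_)
  fin_cases i <;> fin_cases j <;> simp [aMat] <;> fun_prop

theorem continuous_aq842 : Continuous aq := by
  refine continuous_toGL842 _ (continuous_matrix fun i j => ?_)
  fin_cases i <;> fin_cases j <;> simp [aqMat] <;> fun_prop

theorem continuous_incl842 : Continuous incl := by
  refine continuous_toGL842 _ (continuous_matrix fun i j => ?_)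
  simp only [coe_incl_apply842]
  exact Complex.continuous_ofReal.comp (continuous_entry842 i j)

theorem continuous_glAut_star842 : Continuous (glAut (starRingAut : ℂ ≃+* ℂ)) := by
  refine continuous_toGL842 _ (continuous_matrix fun i j => ?_)
  have : (fun g : GL (Fin 2) ℂ =>
      ((glAut (starRingAut : ℂ ≃+* ℂ) g : GL (Fin 2) ℂ) : Matrix (Fin 2) (Fin 2) ℂ) i j)
      = fun g : GL (Fin 2) ℂ => (starRingEnd ℂ) ((g : Matrix (Fin 2) (Fin 2) ℂ) i j) := by
    funext g; rfl
  rw [this]
  exact Complex.continuous_conj.comp (continuous_entry842 i j)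

theorem continuous_polarMap842 (ε : GL (Fin 2) ℝ) : Continuous (polarMap ε) := by
  unfold polarMap
  have h1 : Continuous fun p : (ℝ × ℝ) × (ℝ × ℝ) => zk p.2.1 p.2.2 :=
    continuous_zk842.comp continuous_snd
  have h2 : Continuous fun p : (ℝ × ℝ) × (ℝ × ℝ) => aR p.1.1 :=
    continuous_aR842.comp (continuous_fst.comp continuous_fst)
  have h3 : Continuous fun p : (ℝ × ℝ) × (ℝ × ℝ) => zk 0 p.1.2 :=
    continuous_zk842.comp (continuous_const.prodMk (continuous_snd.comp continuous_fst))
  exact ((h1.mul h2).mul h3).mul continuous_const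

theorem continuous_hakPolarMap842 (ε : GL (Fin 2) ℝ) : Continuous (hakPolarMap ε) := by
  unfold hakPolarMap
  have h1 : Continuous fun p : ((ℝ × ℝ) × (ℝ × GL (Fin 2) ℂ)) × (ℝ × ℝ) =>
      incl (polarMap ε (p.1.1, p.2)) :=
    continuous_incl842.comp ((continuous_polarMap842 ε).comp
      ((continuous_fst.comp continuous_fst).prodMk continuous_snd))
  have h2 : Continuous fun p : ((ℝ × ℝ) × (ℝ × GL (Fin 2) ℂ)) × (ℝ × ℝ) => aq p.1.2.1 :=
    continuous_aq842.comp (continuous_fst.comp (continuous_snd.comp continuous_fst))
  have h3 : Continuous fun p : ((ℝ × ℝ) × (ℝ × GL (Fin 2) ℂ)) × (ℝ × ℝ) => p.1.2.2 :=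
    continuous_snd.comp (continuous_snd.comp continuous_fst)
  exact (h1.mul h2).mul h3

theorem continuous_hakMap842 : Continuous hakMap := by
  unfold hakMap
  exact ((continuous_incl842.comp continuous_fst).mul
    (continuous_aq842.comp (continuous_fst.comp continuous_snd))).mul
    (continuous_snd.comp continuous_snd)

theorem continuous_ellY842 (u θ : ℝ) : Continuous fun τ : ℝ => ellY u θ τ := by
  unfold ellY
  exact ((continuous_aR842.inv).mul continuous_const).mul continuous_aR842

theorem continuous_ellX842 (u θ : ℝ) : Continuous fun p : ℝ × ℝ => ellX u θ p.1 p.2 := by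
  unfold ellX
  have h1 : Continuous fun p : ℝ × ℝ => aq (-p.2) :=
    continuous_aq842.comp (continuous_snd.neg)
  have h2 : Continuous fun p : ℝ × ℝ => incl (ellY (u / 2) (θ / 2) p.1) :=
    continuous_incl842.comp ((continuous_ellY842 _ _).comp continuous_fst)
  exact (h1.mul h2).mul h1

end Fermat.Agent.LT.T6.H842

end
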