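import Mathlib
import Fermat.Agent.LT.T6.H842.EllTop

/-!
# Row LT, tower T6, leaf T6.27 (helper842): the parameter measures

OFF-MAIN.  Integrals against `sinhMeas`, `fermiMeas`, `radMeas`, `torMeas`.
-/

set_option autoImplicit false

open scoped Matrix
open MeasureTheory

noncomputable section

namespace Fermat.Agent.LT.T6.H842

instance sFinite_sinhMeas842 : SFinite sinhMeas := by
  unfold sinhMeas; infer_instance

instance sFinite_fermiMeas842 : SFinite fermiMeas := by
  unfold fermiMeas; infer_instance

instance sFinite_radMeas842 : SFinite radMeas := by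
  unfold radMeas; infer_instance

instance sFinite_torMeas842 : SFinite torMeas := by
  unfold torMeas; infer_instance

/-- The angular measure `dβ|_{(0,2π]}` is finite of mass `2π`. -/
theorem angMeas_real_univ842 :
    ((volume : Measure ℝ).restrict (Set.Ioc 0 (2 * Real.pi))).real Set.univ = 2 * Real.pi := by
  rw [measureReal_restrict_apply_univ, Real.volume_real_Ioc_of_le (by positivity)]
  ring

theorem sinhMeas_eq842 :
    sinhMeas = ((volume : Measure ℝ).restrict (Set.Ioi 0)).withDensity
      (fun τ => ((Real.toNNReal (Real.sinh τ) : NNReal) : ENNReal)) := rfl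

theorem fermiMeas_eq842 :
    fermiMeas = (volume : Measure ℝ).withDensity
      (fun b => ((Real.toNNReal (Real.cosh (2 * b) ^ 2) : NNReal) : ENNReal)) := rfl

theorem measurable_sinh_toNNReal842 : Measurable fun τ : ℝ => Real.toNNReal (Real.sinh τ) :=
  (continuous_real_toNNReal.comp Real.continuous_sinh).measurable

theorem measurable_cosh_toNNReal842 :
    Measurable fun b : ℝ => Real.toNNReal (Real.cosh (2 * b) ^ 2) :=
  (continuous_real_toNNReal.comp (by fun_prop)).measurable

/-- `∫ g d(sinh τ dτ|_{τ>0}) = ∫_{τ>0} g(τ) sinh τ dτ`. -/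
theorem integral_sinhMeas842 {E : Type*} [NormedAddCommGroup E] [NormedSpace ℝ E]
    (g : ℝ → E) :
    ∫ τ, g τ ∂sinhMeas = ∫ τ in Set.Ioi (0 : ℝ), Real.sinh τ • g τ := by
  rw [sinhMeas_eq842, integral_withDensity_eq_integral_smul measurable_sinh_toNNReal842]
  refine setIntegral_congr_fun measurableSet_Ioi fun τ hτ => ?_
  have : 0 ≤ Real.sinh τ := (Real.sinh_pos_iff.mpr hτ).le
  simp only [NNReal.smul_def, Real.coe_toNNReal _ this]

/-- `∫ g d(cosh²(2b) db) = ∫ g(b) cosh²(2b) db`. -/
theorem integral_fermiMeas842 {E : Type*} [NormedAddCommGroup E] [NormedSpace ℝ E]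
    (g : ℝ → E) :
    ∫ b, g b ∂fermiMeas = ∫ b : ℝ, (Real.cosh (2 * b) ^ 2) • g b := by
  rw [fermiMeas_eq842, integral_withDensity_eq_integral_smul measurable_cosh_toNNReal842]
  refine integral_congr_ae (Filter.Eventually.of_forall fun b => ?_)
  have : 0 ≤ Real.cosh (2 * b) ^ 2 := by positivity
  simp only [NNReal.smul_def, Real.coe_toNNReal _ this]

/-- A continuous function with compact support is integrable for `sinh τ dτ|_{τ>0}`. -/
theorem integrable_sinhMeas842 {E : Type*} [NormedAddCommGroup E] [NormedSpace ℝ E]
    (g : ℝ → E) (hg : Continuous g) (hgs : HasCompactSupport g) : Integrable g sinhMeas := by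
  rw [sinhMeas_eq842,
    integrable_withDensity_iff_integrable_smul₀ measurable_sinh_toNNReal842.aemeasurable]
  have hc : Continuous fun τ : ℝ => Real.toNNReal (Real.sinh τ) • g τ :=
    (continuous_real_toNNReal.comp Real.continuous_sinh).smul hg
  have hs : HasCompactSupport fun τ : ℝ => Real.toNNReal (Real.sinh τ) • g τ :=
    hgs.smul_left
  exact (hc.integrable_of_hasCompactSupport hs).restrict

/-- A continuous function with compact support is integrable for `cosh²(2b) db`. -/
theorem integrable_fermiMeas842 {E : Type*} [NormedAddCommGroup E] [NormedSpace ℝ E]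
    (g : ℝ → E) (hg : Continuous g) (hgs : HasCompactSupport g) : Integrable g fermiMeas := by
  rw [fermiMeas_eq842,
    integrable_withDensity_iff_integrable_smul₀ measurable_cosh_toNNReal842.aemeasurable]
  have hc : Continuous fun b : ℝ => Real.toNNReal (Real.cosh (2 * b) ^ 2) • g b :=
    (continuous_real_toNNReal.comp (by fun_prop)).smul hg
  have hs : HasCompactSupport fun b : ℝ => Real.toNNReal (Real.cosh (2 * b) ^ 2) • g b :=
    hgs.smul_left
  exact hc.integrable_of_hasCompactSupport hs

end Fermat.Agent.LT.T6.H842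

end
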