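import Mathlib
import Fermat.Agent.LT.T6.H842.EllMeas
import Fermat.Agent.LT.T6.H189.ArchIntClosed
import Fermat.Agent.LT.T6.H820.BoxR
import Fermat.Agent.LT.T6.H634.EllCut2

/-!
# Row LT, tower T6, leaf T6.27 (helper842): the polar decomposition with THE constant

OFF-MAIN.  `polarRC842`: for every Haar measure `μ` of `GL₂(ℝ)`, `PolarRC μ (cR634 μ)`
(`EllSpec.lean`), i.e. the polar decomposition on BOTH components with the constant
`c_I = μ(boxR634) / (2π)` of `H634`.  Inputs (all PROVED, byte-identical copies):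
`H189.iwasawaRC189`, `H189.rightInvRC189`, `H915.lintegral_polar915` (polar constant = Iwasawa
constant), `H820.boxR_measure820`.
-/

set_option autoImplicit false

open scoped Matrix
open MeasureTheory

noncomputable section

namespace Fermat.Agent.LT.T6.H842

open Fermat.Agent.LT.T6.H189 Fermat.Agent.LT.T6.H634

/-! ## 1. Dictionary -/

theorem zk_eq_scl_rot842 (v α : ℝ) : zk v α = sclR v * rotR α := by
  apply Units.ext
  ext i j
  fin_cases i <;> fin_cases j <;>
    simp [zkMat, sclR, dgR, rotR, Matrix.mul_apply, Fin.sum_univ_two]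

theorem aR_eq_atR842 (τ : ℝ) : aR τ = atR τ := by
  apply Units.ext
  ext i j
  fin_cases i <;> fin_cases j <;> simp [aMat, atR, dgR]

theorem zk_zero_eq_rot842 (β : ℝ) : zk 0 β = rotR β := by
  apply Units.ext
  ext i j
  fin_cases i <;> fin_cases j <;> simp [zkMat, rotR]

/-- The reordering of the coordinates `((τ, β), (v, α)) ↦ (v, α, τ, β)`. -/
def reord842 (q : (ℝ × ℝ) × (ℝ × ℝ)) : ℝ × ℝ × ℝ × ℝ := (q.2.1, q.2.2, q.1.1, q.1.2)

theorem measurable_reord842 : Measurable reord842 := by
  unfold reord842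
  fun_prop

theorem polR_reord842 (q : (ℝ × ℝ) × (ℝ × ℝ)) : polR (reord842 q) = polarMap 1 q := by
  unfold polR reord842 polarMap
  rw [zk_eq_scl_rot842 q.2.1 q.2.2, aR_eq_atR842, zk_zero_eq_rot842, mul_one]

theorem map_reord842 : Measure.map reord842 (radMeas.prod torMeas) = polMR := by
  have h1 : reord842 = (MeasurableEquiv.prodAssoc : (ℝ × ℝ) × (ℝ × ℝ) ≃ᵐ ℝ × ℝ × (ℝ × ℝ)) ∘
      (Prod.swap : (ℝ × ℝ) × (ℝ × ℝ) → (ℝ × ℝ) × (ℝ × ℝ)) := by
    funext q; rfl
  rw [h1, ← Measure.map_map MeasurableEquiv.prodAssoc.measurable measurable_swap,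
    Measure.prod_swap]
  unfold torMeas radMeas
  rw [Measure.prodAssoc_prod]
  rfl

/-! ## 2. The two components -/

theorem posR_compl_preimage842 :
    (fun x : GL (Fin 2) ℝ => x * wR) ⁻¹' posRᶜ = posR := by
  ext x
  simp only [Set.mem_preimage, Set.mem_compl_iff, posR, Set.mem_ofPred_eq, Units.val_mul,
    Matrix.det_mul, coe_wR842, det_wMat]
  have hx : (x : Matrix (Fin 2) (Fin 2) ℝ).det ≠ 0 := Matrix.GeneralLinearGroup.det_ne_zero x
  constructor
  · intro h
    rcases lt_or_gt_of_ne hx with h1 | h1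
    · exact absurd (by linarith : 0 < (x : Matrix (Fin 2) (Fin 2) ℝ).det * -1) h
    · exact h1
  · intro h h2
    linarith

/-- **The polar decomposition of a Haar measure of `GL₂(ℝ)`, both components, with the
constant `cR634 μ`.** -/
theorem polarRC842 (μ : @Measure (GL (Fin 2) ℝ) (borel _))
    (hμ : @Measure.IsHaarMeasure _ _ _ (borel _) μ) : 0 < cR634 μ ∧ PolarRC μ (cR634 μ) := by
  let _ : MeasurableSpace (GL (Fin 2) ℝ) := borel _
  have : BorelSpace (GL (Fin 2) ℝ) := ⟨rfl⟩
  have : Measure.IsHaarMeasure μ := hμ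
  obtain ⟨c, hc0, hct, hI⟩ := iwasawaRC189 μ hμ
  have hbox : μ boxR634 = c * ENNReal.ofReal (2 * Real.pi) :=
    Fermat.Agent.LT.T6.H820.boxR_measure820 μ c hI
  have hpi : (0 : ℝ) < 2 * Real.pi := by positivity
  have hcR : cR634 μ = c.toReal := by
    unfold cR634
    rw [hbox, ENNReal.toReal_mul, ENNReal.toReal_ofReal hpi.le]
    field_simp
  have hcpos : 0 < c.toReal := ENNReal.toReal_pos hc0 hct
  have hcof : ENNReal.ofReal (cR634 μ) = c := by rw [hcR, ENNReal.ofReal_toReal hct]
  refine ⟨by rw [hcR]; exact hcpos, by rw [hcR]; exact hcpos, ?_⟩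
  rw [hcof]
  have hpol := Fermat.Agent.LT.T6.H915.lintegral_polar915 cartanRC189 abelAreaRC189 μ c hct hI
  have hright : Measure.map (fun x : GL (Fin 2) ℝ => x * wR) μ = μ := (rightInvRC189 μ hμ).1 wR
  have hmw : Measurable fun x : GL (Fin 2) ℝ => x * wR :=
    (continuous_id.mul continuous_const).measurable
  have hposm : MeasurableSet posR := Fermat.Agent.LT.T6.H915.measurableSet_posR915
  have hpm1 : Measurable (polarMap 1) := (continuous_polarMap842 1).measurable
  have hpmw : Measurable (polarMap wR) := (continuous_polarMap842 wR).measurable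
  have key : ∀ F : GL (Fin 2) ℝ → ENNReal, Measurable F →
      ∫⁻ g in posR, F g ∂μ = c * ∫⁻ q, F (polarMap 1 q) ∂(radMeas.prod torMeas) := by
    intro F hF
    rw [hpol F hF, ← map_reord842,
      lintegral_map (f := fun p => F (polR p))
        (hF.comp Fermat.Agent.LT.T6.H915.measurable_polR915) measurable_reord842]
    simp only [polR_reord842]
  change μ = c • (Measure.map (polarMap 1) (radMeas.prod torMeas) +
    Measure.map (polarMap wR) (radMeas.prod torMeas))
  refine Measure.ext_of_lintegral _ fun F hF => ?_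
  rw [lintegral_smul_measure, lintegral_add_measure, lintegral_map hF hpm1,
    lintegral_map hF hpmw, smul_eq_mul, mul_add, ← lintegral_add_compl F hposm, key F hF]
  congr 1
  have h1 : ∫⁻ x in posRᶜ, F x ∂μ = ∫⁻ x in posR, F (x * wR) ∂μ := by
    conv_lhs => rw [← hright]
    rw [setLIntegral_map hposm.compl hF hmw, posR_compl_preimage842]
  rw [h1, key (fun x => F (x * wR)) (hF.comp hmw)]
  congr 1
  refine lintegral_congr fun q => ?_
  simp only [polarMap, mul_one]

end Fermat.Agent.LT.T6.H842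

end
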