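import Mathlib

/-!
# Row LT, tower T6, leaf T6.27 (helper842): the abstract unfolding lemma

OFF-MAIN.  Mathlib only.

`unfold_core842`: let `μ = map Ψ (π ⊗ λ)` for a measurable `Ψ : P × Y → G`; let `Ω` be
constant along the `Y`-direction (`Ω (Ψ (p, y)) = ω p` for `π`-almost all `p` and all `y`) and
let `B ≥ 0` have `∫ B (Ψ (p, y)) dλ(y) = κ` for every `p`.  If `ω` is `π`-integrable then
`Ω B` is `μ`-integrable and `∫ Ω B dμ = κ ∫ ω dπ`.
-/

set_option autoImplicit false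

open MeasureTheory

noncomputable section

namespace Fermat.Agent.LT.T6.H842

theorem unfold_core842 {P Y G : Type*} [MeasurableSpace P] [MeasurableSpace Y]
    [MeasurableSpace G] (π : Measure P) (lam : Measure Y) [SFinite π] [SFinite lam]
    (Ψ : P × Y → G) (hΨ : Measurable Ψ)
    (Ω : G → ℂ) (hΩ : Measurable Ω)
    (B : G → ℝ) (hB : Measurable B) (hB0 : ∀ g, 0 ≤ B g)
    (ω : P → ℂ) (hω : Integrable ω π)
    (hinv : ∀ᵐ p ∂π, ∀ y, Ω (Ψ (p, y)) = ω p)
    (κ : ℝ) (hBint : ∀ p, Integrable (fun y => B (Ψ (p, y))) lam)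
    (hcut : ∀ p, ∫ y, B (Ψ (p, y)) ∂lam = κ) :
    Integrable (fun g => Ω g * (B g : ℂ)) (Measure.map Ψ (π.prod lam)) ∧
      ∫ g, Ω g * (B g : ℂ) ∂(Measure.map Ψ (π.prod lam)) = (κ : ℂ) * ∫ p, ω p ∂π := by
  have hF : Measurable (fun g => Ω g * (B g : ℂ)) :=
    hΩ.mul (Complex.measurable_ofReal.comp hB)
  have hFΨ : Measurable (fun z : P × Y => Ω (Ψ z) * (B (Ψ z) : ℂ)) := hF.comp hΨ
  -- the a.e. equality on the product
  have hae : ∀ᵐ z ∂(π.prod lam), Ω (Ψ z) * (B (Ψ z) : ℂ) = ω z.1 * (B (Ψ z) : ℂ) := by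
    have h1 : ∀ᵐ z ∂(π.prod lam), ∀ y, Ω (Ψ (z.1, y)) = ω z.1 :=
      (Measure.quasiMeasurePreserving_fst (μ := π) (ν := lam)).ae hinv
    filter_upwards [h1] with z hz
    rw [← hz z.2]
  have hHm : AEStronglyMeasurable (fun z : P × Y => ω z.1 * (B (Ψ z) : ℂ)) (π.prod lam) :=
    hFΨ.aestronglyMeasurable.congr hae
  -- integrability of `H`
  have hnorm : ∀ p, ∫ y, ‖ω p * (B (Ψ (p, y)) : ℂ)‖ ∂lam = ‖ω p‖ * κ := by
    intro p
    have : (fun y => ‖ω p * (B (Ψ (p, y)) : ℂ)‖) = fun y => ‖ω p‖ * B (Ψ (p, y)) := by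
      funext y
      rw [norm_mul, Complex.norm_real, Real.norm_of_nonneg (hB0 _)]
    rw [this, integral_const_mul, hcut p]
  have hH : Integrable (fun z : P × Y => ω z.1 * (B (Ψ z) : ℂ)) (π.prod lam) := by
    rw [integrable_prod_iff hHm]
    refine ⟨Filter.Eventually.of_forall fun p => ?_, ?_⟩
    · exact ((hBint p).ofReal (𝕜 := ℂ)).const_mul (ω p)
    · simp only [hnorm]
      exact hω.norm.mul_const κ
  have hFint : Integrable (fun z : P × Y => Ω (Ψ z) * (B (Ψ z) : ℂ)) (π.prod lam) :=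
    hH.congr (hae.mono fun z hz => hz.symm)
  refine ⟨?_, ?_⟩
  · rw [integrable_map_measure hF.aestronglyMeasurable hΨ.aemeasurable]
    exact hFint
  · rw [integral_map hΨ.aemeasurable hF.aestronglyMeasurable, integral_congr_ae hae,
      integral_prod _ hH]
    have : ∀ p, ∫ y, ω p * (B (Ψ (p, y)) : ℂ) ∂lam = ω p * (κ : ℂ) := by
      intro p
      rw [integral_const_mul]
      have h2 : ∫ y, ((B (Ψ (p, y)) : ℝ) : ℂ) ∂lam = ((∫ y, B (Ψ (p, y)) ∂lam : ℝ) : ℂ) :=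
        integral_ofReal
      rw [h2, hcut p]
    simp only [this]
    rw [integral_mul_const, mul_comm]

end Fermat.Agent.LT.T6.H842

end
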