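import Mathlib
import Fermat.Agent.LT.T6.H842.EllCore
import Fermat.Agent.LT.T6.H842.EllMeas

/-!
# Row LT, tower T6, leaf T6.27 (helper842): the REAL side, `EllRealC`

OFF-MAIN.  `ellReal842 : EllRealC` (unconditional: the polar decomposition `PolarRC μ c` and
the normalisation `IsTorNorm u θ μT m` are hypotheses INSIDE the Prop).
-/

set_option autoImplicit false

open scoped Matrix
open MeasureTheory

noncomputable section

namespace Fermat.Agent.LT.T6.H842

/-! ## 1. The conjugation identities -/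

theorem conj_polar_one842 (u θ : ℝ) (p : (ℝ × ℝ) × (ℝ × ℝ)) :
    (polarMap 1 p)⁻¹ * zk u θ * polarMap 1 p
      = (zk 0 p.1.2)⁻¹ * ellY u θ p.1.1 * zk 0 p.1.2 := by
  have hcomm : (zk p.2.1 p.2.2)⁻¹ * zk u θ * zk p.2.1 p.2.2 = zk u θ := by
    rw [mul_assoc, inv_mul_eq_iff_eq_mul]; exact zk_comm842 _ _ _ _
  unfold polarMap ellY
  rw [mul_one]
  calc (zk p.2.1 p.2.2 * aR p.1.1 * zk 0 p.1.2)⁻¹ * zk u θ *
        (zk p.2.1 p.2.2 * aR p.1.1 * zk 0 p.1.2)
      = (zk 0 p.1.2)⁻¹ * ((aR p.1.1)⁻¹ * ((zk p.2.1 p.2.2)⁻¹ * zk u θ * zk p.2.1 p.2.2) *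
          aR p.1.1) * zk 0 p.1.2 := by
        simp only [mul_inv_rev, mul_assoc]
    _ = (zk 0 p.1.2)⁻¹ * ((aR p.1.1)⁻¹ * zk u θ * aR p.1.1) * zk 0 p.1.2 := by rw [hcomm]

theorem polarMap_wR842 (p : (ℝ × ℝ) × (ℝ × ℝ)) : polarMap wR p = polarMap 1 p * wR := by
  unfold polarMap; rw [mul_one]

theorem conj_polar_wR842 (u θ : ℝ) (p : (ℝ × ℝ) × (ℝ × ℝ)) :
    (polarMap wR p)⁻¹ * zk u θ * polarMap wR p
      = (zk 0 (-p.1.2))⁻¹ * ellY u (-θ) p.1.1 * zk 0 (-p.1.2) := by
  have h1 : (polarMap wR p)⁻¹ * zk u θ * polarMap wR p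
      = wR * ((polarMap 1 p)⁻¹ * zk u θ * polarMap 1 p) * wR := by
    rw [polarMap_wR842, mul_inv_rev, wR_inv842]
    simp only [mul_assoc]
  have hk : wR * (zk 0 p.1.2)⁻¹ * wR = (zk 0 (-p.1.2))⁻¹ := by
    rw [← wR_zk_wR842, mul_inv_rev, mul_inv_rev, wR_inv842, mul_assoc]
  rw [h1, conj_polar_one842, ← ellY_wR842, ← hk, ← wR_zk_wR842]
  have hw : ∀ x : GL (Fin 2) ℝ, wR * (wR * x) = x := fun x => by
    rw [← mul_assoc, wR_mul_self842, one_mul]
  simp only [mul_assoc, hw]

/-! ## 2. Support -/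

/-- `τ ↦ f(Y(u,θ,τ))` has compact support if `f` has and `sin θ ≠ 0`. -/
theorem hasCompactSupport_ellY842 {E : Type*} [Zero E] (f : GL (Fin 2) ℝ → E)
    (hfs : HasCompactSupport f) (u θ : ℝ) (hθ : Real.sin θ ≠ 0) :
    HasCompactSupport fun τ : ℝ => f (ellY u θ τ) := by
  obtain ⟨M1, hM1⟩ := hfs.isCompact.exists_bound_of_continuousOn
    (continuous_entry842 (K := ℝ) 1 0).continuousOn
  obtain ⟨M0, hM0⟩ := hfs.isCompact.exists_bound_of_continuousOn
    (continuous_entry842 (K := ℝ) 0 1).continuousOn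
  set A : ℝ := max M1 M0 / (Real.exp u * |Real.sin θ|) with hA
  have hpos : 0 < Real.exp u * |Real.sin θ| := mul_pos (Real.exp_pos u) (abs_pos.mpr hθ)
  refine HasCompactSupport.intro (isCompact_Icc : IsCompact (Set.Icc (-Real.log A) (Real.log A)))
    fun τ hτ => ?_
  by_contra hne
  have hmem : ellY u θ τ ∈ tsupport f := subset_tsupport f hne
  have h1 := hM1 _ hmem
  have h0 := hM0 _ hmem
  simp only [coe_ellY842, Matrix.of_apply, Matrix.cons_val', Matrix.cons_val_zero,
    Matrix.cons_val_one, Matrix.empty_val', Matrix.cons_val_fin_one] at h1 h0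
  rw [Real.norm_eq_abs] at h1 h0
  rw [abs_mul, abs_mul, abs_of_pos (Real.exp_pos _), abs_of_pos (Real.exp_pos _)] at h1
  rw [abs_neg, abs_mul, abs_mul, abs_of_pos (Real.exp_pos _), abs_of_pos (Real.exp_pos _)] at h0
  have e1 : Real.exp τ ≤ A := by
    rw [hA, le_div_iff₀ hpos]
    calc Real.exp τ * (Real.exp u * |Real.sin θ|)
        = Real.exp u * (Real.exp τ * |Real.sin θ|) := by ring
      _ ≤ M1 := h1
      _ ≤ max M1 M0 := le_max_left _ _
  have e0 : Real.exp (-τ) ≤ A := by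
    rw [hA, le_div_iff₀ hpos]
    calc Real.exp (-τ) * (Real.exp u * |Real.sin θ|)
        = Real.exp u * (Real.exp (-τ) * |Real.sin θ|) := by ring
      _ ≤ M0 := h0
      _ ≤ max M1 M0 := le_max_right _ _
  have hApos : 0 < A := lt_of_lt_of_le (Real.exp_pos τ) e1
  apply hτ
  constructor
  · have := (Real.le_log_iff_exp_le hApos).mpr e0
    linarith
  · exact (Real.le_log_iff_exp_le hApos).mpr e1

/-! ## 3. The cut-off in coordinates -/

/-- The cut-off property in the coordinates `(v, α)` of the torus. -/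
theorem cutoff_coord842 {Γ : Type} [Group Γ] [TopologicalSpace Γ] [IsTopologicalGroup Γ]
    (u θ : ℝ)
    (μT : @Measure (twCentSub (MonoidHom.id (GL (Fin 2) ℝ)) (zk u θ)) (borel _)) (m : ℝ)
    (hm : IsTorNorm u θ μT m) (j : GL (Fin 2) ℝ →* Γ) (hj : Continuous j) (β : Γ → ℝ)
    (hβ : IsCutoff (zk u θ) μT j β) (x : Γ) :
    Integrable (fun y : ℝ × ℝ => β (j (zk y.1 y.2) * x)) torMeas ∧
      ∫ y : ℝ × ℝ, β (j (zk y.1 y.2) * x) ∂torMeas = 1 / m := by
  let _ : MeasurableSpace (twCentSub (MonoidHom.id (GL (Fin 2) ℝ)) (zk u θ)) := borel _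
  have : BorelSpace (twCentSub (MonoidHom.id (GL (Fin 2) ℝ)) (zk u θ)) := ⟨rfl⟩
  obtain ⟨hm0, hμT⟩ := hm
  obtain ⟨hβc, -, hβ1⟩ := hβ
  have hι : Continuous (torIota u θ) := by
    unfold torIota
    exact Continuous.subtype_mk continuous_zk842 _
  have hg : Continuous fun t : twCentSub (MonoidHom.id (GL (Fin 2) ℝ)) (zk u θ) =>
      β (j (t : GL (Fin 2) ℝ) * x) :=
    hβc.comp ((hj.comp continuous_subtype_val).mul continuous_const)
  have h1 := hβ1 x
  rw [hμT, integral_smul_measure, ENNReal.toReal_ofReal hm0.le,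
    integral_map hι.measurable.aemeasurable hg.aestronglyMeasurable] at h1
  have h2 : (∫ y : ℝ × ℝ, β (j (zk y.1 y.2) * x) ∂torMeas) = 1 / m := by
    have h3 : m * ∫ y : ℝ × ℝ, β (j (zk y.1 y.2) * x) ∂torMeas = 1 := h1
    field_simp
    linarith
  refine ⟨?_, h2⟩
  by_contra hni
  rw [integral_undef hni] at h2
  have : (0 : ℝ) < 1 / m := by positivity
  linarith

/-! ## 4. The real side -/

/-- **T6.27, real side.** -/
theorem ellReal842 : EllRealC := by
  intro μ c hμ u θ hθ μT m hm f hf hfs hfk β hβ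
  let _ : MeasurableSpace (GL (Fin 2) ℝ) := borel _
  have : BorelSpace (GL (Fin 2) ℝ) := ⟨rfl⟩
  obtain ⟨hc, hμeq⟩ := hμ
  have hm0 : 0 < m := hm.1
  -- the orbital function
  have hΩc : Continuous fun x : GL (Fin 2) ℝ => f (x⁻¹ * zk u θ * x) :=
    hf.comp ((continuous_inv.mul continuous_const).mul continuous_id)
  have hβc : Continuous β := hβ.1
  -- the two profiles
  have hω : ∀ θ' : ℝ, Real.sin θ' ≠ 0 →
      Integrable (fun p : ℝ × ℝ => f (ellY u θ' p.1)) radMeas := by
    intro θ' hθ'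
    have : Integrable (fun τ : ℝ => f (ellY u θ' τ)) sinhMeas :=
      integrable_sinhMeas842 _ (hf.comp (continuous_ellY842 u θ'))
        (hasCompactSupport_ellY842 f hfs u θ' hθ')
    exact this.comp_fst _
  have hθn : Real.sin (-θ) ≠ 0 := by rw [Real.sin_neg]; exact neg_ne_zero.mpr hθ
  have hIω : ∀ θ' : ℝ, ∫ p : ℝ × ℝ, f (ellY u θ' p.1) ∂radMeas
      = ((2 * Real.pi : ℝ) : ℂ) * ∫ τ in Set.Ioi (0 : ℝ), f (ellY u θ' τ) * (Real.sinh τ : ℂ) := by
    intro θ'
    unfold radMeas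
    rw [integral_fun_fst (fun τ : ℝ => f (ellY u θ' τ)), angMeas_real_univ842,
      integral_sinhMeas842, Complex.real_smul]
    congr 1
    refine setIntegral_congr_fun measurableSet_Ioi fun τ _ => ?_
    simp only [Complex.real_smul]
    ring
  -- the cut-off
  have hcut := fun x => cutoff_coord842 u θ μT m hm (MonoidHom.id _) continuous_id β hβ x
  -- the two pieces
  have key1 := unfold_core842 radMeas torMeas (polarMap 1)
    (continuous_polarMap842 1).measurable (fun x => f (x⁻¹ * zk u θ * x)) hΩc.measurable β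
    hβc.measurable hβ.2.1 (fun p => f (ellY u θ p.1)) (hω θ hθ)
    (Filter.Eventually.of_forall fun p y => by
      rw [conj_polar_one842]
      exact hfk _ _ (inSO2_zk842 _))
    (1 / m)
    (fun p => by
      have := (hcut (aR p.1 * zk 0 p.2 * 1)).1
      refine this.congr (Filter.Eventually.of_forall fun y => ?_)
      simp only [polarMap, MonoidHom.id_apply, mul_assoc])
    (fun p => by
      have := (hcut (aR p.1 * zk 0 p.2 * 1)).2
      rw [← this]
      refine integral_congr_ae (Filter.Eventually.of_forall fun y => ?_)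
      simp only [polarMap, MonoidHom.id_apply, mul_assoc])
  have key2 := unfold_core842 radMeas torMeas (polarMap wR)
    (continuous_polarMap842 wR).measurable (fun x => f (x⁻¹ * zk u θ * x)) hΩc.measurable β
    hβc.measurable hβ.2.1 (fun p => f (ellY u (-θ) p.1)) (hω (-θ) hθn)
    (Filter.Eventually.of_forall fun p y => by
      rw [conj_polar_wR842]
      exact hfk _ _ (inSO2_zk842 _))
    (1 / m)
    (fun p => by
      have := (hcut (aR p.1 * zk 0 p.2 * wR)).1
      refine this.congr (Filter.Eventually.of_forall fun y => ?_)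
      simp only [polarMap, MonoidHom.id_apply, mul_assoc])
    (fun p => by
      have := (hcut (aR p.1 * zk 0 p.2 * wR)).2
      rw [← this]
      refine integral_congr_ae (Filter.Eventually.of_forall fun y => ?_)
      simp only [polarMap, MonoidHom.id_apply, mul_assoc])
  -- assembly
  have hμeq' : μ = ENNReal.ofReal c •
      (Measure.map (polarMap 1) (radMeas.prod torMeas) +
        Measure.map (polarMap wR) (radMeas.prod torMeas)) := hμeq
  have hint : Integrable (fun x : GL (Fin 2) ℝ => f (x⁻¹ * zk u θ * x) * (β x : ℂ)) μ := by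
    rw [hμeq']
    exact (key1.1.add_measure key2.1).smul_measure ENNReal.ofReal_ne_top
  refine ⟨hint, ?_⟩
  have hval : ∫ x : GL (Fin 2) ℝ, f (x⁻¹ * zk u θ * x) * (β x : ℂ) ∂μ
      = ((2 * Real.pi * c / m : ℝ) : ℂ) * ellIntR f u θ := by
    rw [hμeq', integral_smul_measure, integral_add_measure key1.1 key2.1, key1.2, key2.2,
      hIω θ, hIω (-θ), ENNReal.toReal_ofReal hc.le]
    unfold ellIntR
    have hi1 : IntegrableOn (fun τ : ℝ => f (ellY u θ τ) * (Real.sinh τ : ℂ)) (Set.Ioi 0) :=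
      ((hf.comp (continuous_ellY842 u θ)).mul
        (Complex.continuous_ofReal.comp Real.continuous_sinh)).integrable_of_hasCompactSupport
        (hasCompactSupport_ellY842 f hfs u θ hθ).mul_right |>.integrableOn
    have hi2 : IntegrableOn (fun τ : ℝ => f (ellY u (-θ) τ) * (Real.sinh τ : ℂ)) (Set.Ioi 0) :=
      ((hf.comp (continuous_ellY842 u (-θ))).mul
        (Complex.continuous_ofReal.comp Real.continuous_sinh)).integrable_of_hasCompactSupport
        (hasCompactSupport_ellY842 f hfs u (-θ) hθn).mul_right |>.integrableOn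
    have hsum : ∫ τ in Set.Ioi (0 : ℝ), (f (ellY u θ τ) + f (ellY u (-θ) τ)) * (Real.sinh τ : ℂ)
        = (∫ τ in Set.Ioi (0 : ℝ), f (ellY u θ τ) * (Real.sinh τ : ℂ)) +
          ∫ τ in Set.Ioi (0 : ℝ), f (ellY u (-θ) τ) * (Real.sinh τ : ℂ) := by
      rw [← integral_add hi1 hi2]
      refine integral_congr_ae (Filter.Eventually.of_forall fun τ => ?_)
      simp only [add_mul]
    rw [hsum, Complex.real_smul]
    push_cast
    field_simp
  exact hval

end Fermat.Agent.LT.T6.H842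

end
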