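import Mathlib
import Fermat.Agent.LT.T6.H842.EllMeas
import Fermat.Agent.LT.T6.H915.PolOfR

/-!
# Row LT, tower T6, leaf T6.27 (helper842): the Haar measures of the elliptic tori

OFF-MAIN.  For `γ = h (z_u k_θ) h⁻¹` (`sin θ ≠ 0`) the centraliser of `γ` is
`{h z_v k_α h⁻¹}`, and every Haar measure `μT` of it is `m` times the image of
`dv ⊗ dα|_{(0,2π]}`, with `m = μT {t | 1 ≤ det t ≤ e²} / (2π)` (`torusHaar842`).
`torusHaarC842 : TorusHaarC` is the case `h = 1`.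
-/

set_option autoImplicit false

open scoped Matrix
open MeasureTheory

noncomputable section

namespace Fermat.Agent.LT.T6.H842

/-! ## 1. The centraliser -/

/-- The centraliser of `z_u k_θ` (`sin θ ≠ 0`) consists of the `z_v k_α`. -/
theorem exists_zk_of_comm842 (u θ : ℝ) (hθ : Real.sin θ ≠ 0) (t : GL (Fin 2) ℝ)
    (ht : zk u θ * t = t * zk u θ) : ∃ v α : ℝ, t = zk v α := by
  have hmat : zkMat u θ * (t : Matrix (Fin 2) (Fin 2) ℝ)
      = (t : Matrix (Fin 2) (Fin 2) ℝ) * zkMat u θ := by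
    have := congrArg (fun g : GL (Fin 2) ℝ => (g : Matrix (Fin 2) (Fin 2) ℝ)) ht
    simpa using this
  have he : Real.exp u ≠ 0 := (Real.exp_pos u).ne'
  set a := (t : Matrix (Fin 2) (Fin 2) ℝ) 0 0 with ha
  set b := (t : Matrix (Fin 2) (Fin 2) ℝ) 0 1 with hb
  set c := (t : Matrix (Fin 2) (Fin 2) ℝ) 1 0 with hc
  set d := (t : Matrix (Fin 2) (Fin 2) ℝ) 1 1 with hd
  have h00 := congrFun (congrFun hmat 0) 0
  have h10 := congrFun (congrFun hmat 1) 0
  simp only [zkMat, Matrix.mul_apply, Fin.sum_univ_two, Matrix.of_apply, Matrix.cons_val',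
    Matrix.cons_val_zero, Matrix.cons_val_one, Matrix.empty_val', Matrix.cons_val_fin_one]
    at h00 h10
  have hbc : b = -c := by
    have h : Real.exp u * Real.sin θ * (b + c) = 0 := by
      simp only [← ha, ← hb, ← hc] at h00
      linarith
    have := (mul_eq_zero.mp h).resolve_left (mul_ne_zero he hθ)
    linarith
  have had : a = d := by
    have h : Real.exp u * Real.sin θ * (a - d) = 0 := by
      simp only [← ha, ← hc, ← hd] at h10
      linarith
    have := (mul_eq_zero.mp h).resolve_left (mul_ne_zero he hθ)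
    linarith
  have hdet : (t : Matrix (Fin 2) (Fin 2) ℝ).det = a ^ 2 + c ^ 2 := by
    rw [Matrix.det_fin_two, ← ha, ← hb, ← hc, ← hd, hbc, ← had]; ring
  have hdet0 : a ^ 2 + c ^ 2 ≠ 0 := by
    rw [← hdet]; exact Matrix.GeneralLinearGroup.det_ne_zero t
  have hpos : 0 < a ^ 2 + c ^ 2 := lt_of_le_of_ne (by positivity) (Ne.symm hdet0)
  set x : ℂ := ⟨a, c⟩ with hx
  have hx0 : x ≠ 0 := by
    intro h0
    have h1 := congrArg Complex.re h0
    have h2 := congrArg Complex.im h0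
    simp only [hx, Complex.zero_re, Complex.zero_im] at h1 h2
    apply hdet0; rw [h1, h2]; ring
  have hnx : 0 < ‖x‖ := norm_pos_iff.mpr hx0
  refine ⟨Real.log ‖x‖, Complex.arg x, ?_⟩
  apply Units.ext
  have hcos : Real.cos (Complex.arg x) = a / ‖x‖ := Complex.cos_arg hx0
  have hsin : Real.sin (Complex.arg x) = c / ‖x‖ := Complex.sin_arg x
  have hexp : Real.exp (Real.log ‖x‖) = ‖x‖ := Real.exp_log hnx
  ext i j
  fin_cases i <;> fin_cases j <;>
    simp only [coe_zk842, zkMat, Matrix.of_apply, Matrix.cons_val', Matrix.cons_val_zero,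
      Matrix.cons_val_one, Matrix.empty_val', Matrix.cons_val_fin_one, Fin.zero_eta,
      Fin.mk_one, Fin.isValue, hexp, hcos, hsin]
  · change a = _; field_simp
  · change b = _; rw [hbc]; field_simp
  · change c = _; field_simp
  · change d = _; rw [← had]; field_simp

/-- `h z_v k_α h⁻¹` as an element of the centraliser of `γ = h z_u k_θ h⁻¹`. -/
def torIotaH (h : GL (Fin 2) ℝ) (u θ : ℝ) (γ : GL (Fin 2) ℝ) (hγ : γ = h * zk u θ * h⁻¹)
    (p : ℝ × ℝ) : twCentSub (MonoidHom.id (GL (Fin 2) ℝ)) γ :=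
  ⟨h * zk p.1 p.2 * h⁻¹, by
    change (h * zk p.1 p.2 * h⁻¹)⁻¹ * γ * (h * zk p.1 p.2 * h⁻¹) = γ
    rw [hγ]
    have hc : zk p.1 p.2 * zk u θ = zk u θ * zk p.1 p.2 := zk_comm842 _ _ _ _
    calc (h * zk p.1 p.2 * h⁻¹)⁻¹ * (h * zk u θ * h⁻¹) * (h * zk p.1 p.2 * h⁻¹)
        = h * ((zk p.1 p.2)⁻¹ * (zk u θ * zk p.1 p.2)) * h⁻¹ := by
          simp only [mul_inv_rev, inv_inv, mul_assoc, inv_mul_cancel_left]
      _ = h * zk u θ * h⁻¹ := by rw [← hc, inv_mul_cancel_left]⟩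

@[simp] theorem coe_torIotaH842 (h : GL (Fin 2) ℝ) (u θ : ℝ) (γ : GL (Fin 2) ℝ)
    (hγ : γ = h * zk u θ * h⁻¹) (p : ℝ × ℝ) :
    ((torIotaH h u θ γ hγ p : twCentSub (MonoidHom.id (GL (Fin 2) ℝ)) γ) : GL (Fin 2) ℝ)
      = h * zk p.1 p.2 * h⁻¹ := rfl

theorem continuous_torIotaH842 (h : GL (Fin 2) ℝ) (u θ : ℝ) (γ : GL (Fin 2) ℝ)
    (hγ : γ = h * zk u θ * h⁻¹) : Continuous (torIotaH h u θ γ hγ) := by
  unfold torIotaH
  exact Continuous.subtype_mk ((continuous_const.mul continuous_zk842).mul continuous_const) _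

/-- Every element of the centraliser is some `h z_v k_α h⁻¹`. -/
theorem torIotaH_surj842 (h : GL (Fin 2) ℝ) (u θ : ℝ) (hθ : Real.sin θ ≠ 0) (γ : GL (Fin 2) ℝ)
    (hγ : γ = h * zk u θ * h⁻¹) (t : twCentSub (MonoidHom.id (GL (Fin 2) ℝ)) γ) :
    ∃ p : ℝ × ℝ, torIotaH h u θ γ hγ p = t := by
  obtain ⟨g, hg⟩ : ∃ g : GL (Fin 2) ℝ, g = (t : GL (Fin 2) ℝ) := ⟨_, rfl⟩
  have ht : g⁻¹ * γ * g = γ := by rw [hg]; exact t.2
  have h1 : γ * g = g * γ := by
    rw [mul_assoc, inv_mul_eq_iff_eq_mul] at ht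
    exact ht
  have h2 : (h * zk u θ * h⁻¹) * g = g * (h * zk u θ * h⁻¹) := by
    rw [← hγ]; exact h1
  have hcomm : zk u θ * (h⁻¹ * g * h) = (h⁻¹ * g * h) * zk u θ := by
    calc zk u θ * (h⁻¹ * g * h)
        = h⁻¹ * ((h * zk u θ * h⁻¹) * g) * h := by
          simp only [mul_assoc, inv_mul_cancel_left]
      _ = h⁻¹ * (g * (h * zk u θ * h⁻¹)) * h := by rw [h2]
      _ = (h⁻¹ * g * h) * zk u θ := by
          simp only [mul_assoc, inv_mul_cancel, mul_one]
  obtain ⟨v, α, hv⟩ := exists_zk_of_comm842 u θ hθ _ hcomm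
  refine ⟨(v, α), Subtype.ext ?_⟩
  rw [coe_torIotaH842, ← hg, ← hv]
  simp only [mul_assoc, mul_inv_cancel, mul_one, mul_inv_cancel_left]

theorem torIotaH_mul842 (h : GL (Fin 2) ℝ) (u θ : ℝ) (γ : GL (Fin 2) ℝ)
    (hγ : γ = h * zk u θ * h⁻¹) (p q : ℝ × ℝ) :
    torIotaH h u θ γ hγ p * torIotaH h u θ γ hγ q
      = torIotaH h u θ γ hγ (q.1 + p.1, q.2 + p.2) := by
  apply Subtype.ext
  rw [Subgroup.coe_mul, coe_torIotaH842, coe_torIotaH842, coe_torIotaH842]
  have : zk p.1 p.2 * zk q.1 q.2 = zk (q.1 + p.1) (q.2 + p.2) := by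
    rw [zk_mul842, add_comm p.1, add_comm p.2]
  rw [← this]
  simp only [mul_assoc, inv_mul_cancel_left]

theorem torIotaH_periodic842 (h : GL (Fin 2) ℝ) (u θ : ℝ) (γ : GL (Fin 2) ℝ)
    (hγ : γ = h * zk u θ * h⁻¹) (v α : ℝ) :
    torIotaH h u θ γ hγ (v, α + 2 * Real.pi) = torIotaH h u θ γ hγ (v, α) := by
  apply Subtype.ext
  rw [coe_torIotaH842, coe_torIotaH842, zk_add_two_pi842]

theorem det_torIotaH842 (h : GL (Fin 2) ℝ) (u θ : ℝ) (γ : GL (Fin 2) ℝ)
    (hγ : γ = h * zk u θ * h⁻¹) (p : ℝ × ℝ) :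
    (((torIotaH h u θ γ hγ p : twCentSub (MonoidHom.id (GL (Fin 2) ℝ)) γ) : GL (Fin 2) ℝ) :
      Matrix (Fin 2) (Fin 2) ℝ).det = Real.exp (2 * p.1) := by
  rw [coe_torIotaH842, Units.val_mul, Units.val_mul, Matrix.det_mul, Matrix.det_mul, coe_zk842,
    det_zkMat]
  have h1 : (h : Matrix (Fin 2) (Fin 2) ℝ).det * ((h⁻¹ : GL (Fin 2) ℝ) :
      Matrix (Fin 2) (Fin 2) ℝ).det = 1 := by
    rw [← Matrix.det_mul, ← Units.val_mul, mul_inv_cancel]; simp
  have h2 : Real.exp (2 * p.1) = Real.exp p.1 ^ 2 := by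
    rw [← Real.exp_nat_mul]; norm_num
  rw [h2]
  linear_combination (Real.exp p.1 ^ 2) * h1


/-! ## 2. The image of `dv ⊗ dα` is a left invariant measure, finite on compact sets -/

section Haar

variable (h : GL (Fin 2) ℝ) (u θ : ℝ) (γ : GL (Fin 2) ℝ) (hγ : γ = h * zk u θ * h⁻¹)
  [MeasurableSpace (twCentSub (MonoidHom.id (GL (Fin 2) ℝ)) γ)]
  [BorelSpace (twCentSub (MonoidHom.id (GL (Fin 2) ℝ)) γ)]

theorem measurable_torIotaH842 : Measurable (torIotaH h u θ γ hγ) :=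
  (continuous_torIotaH842 h u θ γ hγ).measurable

/-- The lower integral against the image measure, as an iterated integral. -/
theorem lintegral_torLam842 (F : twCentSub (MonoidHom.id (GL (Fin 2) ℝ)) γ → ENNReal)
    (hF : Measurable F) :
    ∫⁻ t, F t ∂(Measure.map (torIotaH h u θ γ hγ) torMeas)
      = ∫⁻ v : ℝ, ∫⁻ α : ℝ, F (torIotaH h u θ γ hγ (v, α))
          ∂((volume : Measure ℝ).restrict (Set.Ioc 0 (2 * Real.pi))) := by
  rw [lintegral_map hF (measurable_torIotaH842 h u θ γ hγ)]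
  unfold torMeas
  exact lintegral_prod (fun p => F (torIotaH h u θ γ hγ p))
    (hF.comp (measurable_torIotaH842 h u θ γ hγ)).aemeasurable

/-- The image of `dv ⊗ dα|_{(0,2π]}` is left invariant. -/
theorem torLam_map_mul_left842 (hθ : Real.sin θ ≠ 0)
    (t₀ : twCentSub (MonoidHom.id (GL (Fin 2) ℝ)) γ) :
    Measure.map (fun t => t₀ * t) (Measure.map (torIotaH h u θ γ hγ) torMeas)
      = Measure.map (torIotaH h u θ γ hγ) torMeas := by
  obtain ⟨p₀, hp₀⟩ := torIotaH_surj842 h u θ hθ γ hγ t₀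
  refine Measure.ext_of_lintegral _ fun F hF => ?_
  have hm : Measurable fun t : twCentSub (MonoidHom.id (GL (Fin 2) ℝ)) γ => t₀ * t :=
    (continuous_const.mul continuous_id).measurable
  rw [lintegral_map hF hm, lintegral_torLam842 h u θ γ hγ (fun t => F (t₀ * t)) (hF.comp hm),
    lintegral_torLam842 h u θ γ hγ _ hF]
  have h1 : ∀ v α : ℝ, F (t₀ * torIotaH h u θ γ hγ (v, α))
      = F (torIotaH h u θ γ hγ (v + p₀.1, α + p₀.2)) := by
    intro v α
    rw [← hp₀, torIotaH_mul842]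
  simp only [h1]
  have h2 : ∀ v : ℝ, ∫⁻ α : ℝ, F (torIotaH h u θ γ hγ (v + p₀.1, α + p₀.2))
        ∂((volume : Measure ℝ).restrict (Set.Ioc 0 (2 * Real.pi)))
      = ∫⁻ α : ℝ, F (torIotaH h u θ γ hγ (v + p₀.1, α))
        ∂((volume : Measure ℝ).restrict (Set.Ioc 0 (2 * Real.pi))) := by
    intro v
    exact Fermat.Agent.LT.T6.H915.lintegral_angM_add915
      (fun α => F (torIotaH h u θ γ hγ (v + p₀.1, α)))
      (fun α => by
        change F (torIotaH h u θ γ hγ (v + p₀.1, α + 2 * Real.pi)) = _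
        rw [torIotaH_periodic842]) p₀.2
  simp only [h2]
  exact lintegral_add_right_eq_self
    (fun v => ∫⁻ α : ℝ, F (torIotaH h u θ γ hγ (v, α))
      ∂((volume : Measure ℝ).restrict (Set.Ioc 0 (2 * Real.pi)))) p₀.1

omit [MeasurableSpace (twCentSub (MonoidHom.id (GL (Fin 2) ℝ)) γ)]
  [BorelSpace (twCentSub (MonoidHom.id (GL (Fin 2) ℝ)) γ)] in
theorem continuous_log_det_tor842 :
    Continuous fun t : twCentSub (MonoidHom.id (GL (Fin 2) ℝ)) γ =>
      Real.log ((t : GL (Fin 2) ℝ) : Matrix (Fin 2) (Fin 2) ℝ).det := by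
  refine Continuous.log ?_ fun t => Matrix.GeneralLinearGroup.det_ne_zero _
  exact (Units.continuous_val.comp continuous_subtype_val).matrix_det

/-- The image of `dv ⊗ dα|_{(0,2π]}` is finite on compact sets. -/
theorem torLam_lt_top842 (C : Set (twCentSub (MonoidHom.id (GL (Fin 2) ℝ)) γ))
    (hC : IsCompact C) :
    (Measure.map (torIotaH h u θ γ hγ) torMeas) C < ⊤ := by
  obtain ⟨M, hM⟩ := hC.exists_bound_of_continuousOn
    (continuous_log_det_tor842 γ).continuousOn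
  have hsub : torIotaH h u θ γ hγ ⁻¹' C ⊆ Set.Icc (-(M / 2)) (M / 2) ×ˢ Set.univ := by
    intro p hp
    have := hM _ hp
    rw [det_torIotaH842, Real.log_exp, Real.norm_eq_abs, abs_le] at this
    exact ⟨⟨by linarith [this.1], by linarith [this.2]⟩, Set.mem_univ _⟩
  rw [Measure.map_apply (measurable_torIotaH842 h u θ γ hγ) hC.isClosed.measurableSet]
  refine lt_of_le_of_lt (measure_mono hsub) ?_
  unfold torMeas
  rw [Measure.prod_prod]
  exact ENNReal.mul_lt_top measure_Icc_lt_top (measure_lt_top _ _)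

/-- The mass of the box `1 ≤ det ≤ e²`. -/
theorem torLam_box842 :
    (Measure.map (torIotaH h u θ γ hγ) torMeas)
        {t | 1 ≤ ((t : GL (Fin 2) ℝ) : Matrix (Fin 2) (Fin 2) ℝ).det ∧
          ((t : GL (Fin 2) ℝ) : Matrix (Fin 2) (Fin 2) ℝ).det ≤ Real.exp 2}
      = ENNReal.ofReal (2 * Real.pi) := by
  have hdet : Continuous fun t : twCentSub (MonoidHom.id (GL (Fin 2) ℝ)) γ =>
      ((t : GL (Fin 2) ℝ) : Matrix (Fin 2) (Fin 2) ℝ).det :=
    (Units.continuous_val.comp continuous_subtype_val).matrix_det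
  have hms : MeasurableSet {t : twCentSub (MonoidHom.id (GL (Fin 2) ℝ)) γ |
      1 ≤ ((t : GL (Fin 2) ℝ) : Matrix (Fin 2) (Fin 2) ℝ).det ∧
        ((t : GL (Fin 2) ℝ) : Matrix (Fin 2) (Fin 2) ℝ).det ≤ Real.exp 2} :=
    ((isClosed_le continuous_const hdet).inter (isClosed_le hdet continuous_const)).measurableSet
  have hpre : torIotaH h u θ γ hγ ⁻¹' {t | 1 ≤ ((t : GL (Fin 2) ℝ) :
      Matrix (Fin 2) (Fin 2) ℝ).det ∧
        ((t : GL (Fin 2) ℝ) : Matrix (Fin 2) (Fin 2) ℝ).det ≤ Real.exp 2}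
      = Set.Icc (0 : ℝ) 1 ×ˢ Set.univ := by
    ext p
    simp only [Set.mem_preimage, Set.mem_ofPred_eq, det_torIotaH842, Set.mem_prod, Set.mem_Icc,
      Set.mem_univ, and_true]
    rw [Real.one_le_exp_iff, Real.exp_le_exp]
    constructor
    · rintro ⟨h1, h2⟩; exact ⟨by linarith, by linarith⟩
    · rintro ⟨h1, h2⟩; exact ⟨by linarith, by linarith⟩
  rw [Measure.map_apply (measurable_torIotaH842 h u θ γ hγ) hms, hpre]
  unfold torMeas
  rw [Measure.prod_prod, Real.volume_Icc, Measure.restrict_apply_univ, Real.volume_Ioc]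
  simp

end Haar

/-! ## 3. Every Haar measure of the torus is a multiple of the image of `dv ⊗ dα` -/

theorem isClosed_twCent842 (γ : GL (Fin 2) ℝ) :
    IsClosed ((twCentSub (MonoidHom.id (GL (Fin 2) ℝ)) γ : Subgroup (GL (Fin 2) ℝ)) :
      Set (GL (Fin 2) ℝ)) := by
  have : ((twCentSub (MonoidHom.id (GL (Fin 2) ℝ)) γ : Subgroup (GL (Fin 2) ℝ)) :
      Set (GL (Fin 2) ℝ)) = {x | x⁻¹ * γ * x = γ} := rfl
  rw [this]
  exact isClosed_eq ((continuous_inv.mul continuous_const).mul continuous_id) continuous_const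

/-- **The Haar measures of the elliptic tori.**  `γ = h (z_u k_θ) h⁻¹`, `sin θ ≠ 0`, `μT` a Haar
measure of the centraliser of `γ`, `m = μT {1 ≤ det ≤ e²} / (2π)`.  Then `0 < m` and
`μT = m • (image of dv ⊗ dα|_{(0,2π]} under (v, α) ↦ h z_v k_α h⁻¹)`. -/
theorem torusHaar842 (h : GL (Fin 2) ℝ) (u θ : ℝ) (hθ : Real.sin θ ≠ 0) (γ : GL (Fin 2) ℝ)
    (hγ : γ = h * zk u θ * h⁻¹)
    (μT : @Measure (twCentSub (MonoidHom.id (GL (Fin 2) ℝ)) γ) (borel _))
    (hμT : @Measure.IsHaarMeasure _ _ _ (borel _) μT) :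
    0 < (μT {t | 1 ≤ ((t : GL (Fin 2) ℝ) : Matrix (Fin 2) (Fin 2) ℝ).det ∧
          ((t : GL (Fin 2) ℝ) : Matrix (Fin 2) (Fin 2) ℝ).det ≤ Real.exp 2}).toReal /
        (2 * Real.pi) ∧
      μT = ENNReal.ofReal
          ((μT {t | 1 ≤ ((t : GL (Fin 2) ℝ) : Matrix (Fin 2) (Fin 2) ℝ).det ∧
            ((t : GL (Fin 2) ℝ) : Matrix (Fin 2) (Fin 2) ℝ).det ≤ Real.exp 2}).toReal /
          (2 * Real.pi)) •
        @Measure.map _ _ _ (borel _) (torIotaH h u θ γ hγ) torMeas := by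
  let _ : MeasurableSpace (twCentSub (MonoidHom.id (GL (Fin 2) ℝ)) γ) := borel _
  have : BorelSpace (twCentSub (MonoidHom.id (GL (Fin 2) ℝ)) γ) := ⟨rfl⟩
  have := secondCountable_GL842 ℝ
  have := locallyCompact_GR842
  have : LocallyCompactSpace (twCentSub (MonoidHom.id (GL (Fin 2) ℝ)) γ) :=
    (isClosed_twCent842 γ).locallyCompactSpace
  have : SecondCountableTopology (twCentSub (MonoidHom.id (GL (Fin 2) ℝ)) γ) :=
    Topology.IsEmbedding.subtypeVal.secondCountableTopology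
  have : Measure.IsHaarMeasure μT := hμT
  set lam : Measure (twCentSub (MonoidHom.id (GL (Fin 2) ℝ)) γ) :=
    Measure.map (torIotaH h u θ γ hγ) torMeas with hlam
  have : lam.IsMulLeftInvariant :=
    ⟨fun t₀ => torLam_map_mul_left842 h u θ γ hγ hθ t₀⟩
  have : IsFiniteMeasureOnCompacts lam :=
    ⟨fun C hC => torLam_lt_top842 h u θ γ hγ C hC⟩
  have huniq : lam = lam.haarScalarFactor μT • μT := Measure.isMulLeftInvariant_eq_smul lam μT
  set s : NNReal := lam.haarScalarFactor μT with hs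
  set B : Set (twCentSub (MonoidHom.id (GL (Fin 2) ℝ)) γ) :=
    {t | 1 ≤ ((t : GL (Fin 2) ℝ) : Matrix (Fin 2) (Fin 2) ℝ).det ∧
      ((t : GL (Fin 2) ℝ) : Matrix (Fin 2) (Fin 2) ℝ).det ≤ Real.exp 2} with hB
  have hbox : lam B = ENNReal.ofReal (2 * Real.pi) := torLam_box842 h u θ γ hγ
  have hbox2 : (s : ENNReal) * μT B = ENNReal.ofReal (2 * Real.pi) := by
    rw [← hbox, huniq]
    rfl
  have hpi : (0 : ℝ) < 2 * Real.pi := by positivity
  have hs0 : s ≠ 0 := by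
    intro h0
    rw [h0] at hbox2
    simp only [ENNReal.coe_zero, zero_mul] at hbox2
    exact absurd hbox2.symm (by simpa using hpi)
  have hs0' : (s : ENNReal) ≠ 0 := by exact_mod_cast hs0
  have hμB : μT B = ENNReal.ofReal (2 * Real.pi) / (s : ENNReal) := by
    rw [ENNReal.eq_div_iff hs0' ENNReal.coe_ne_top, hbox2]
  have hμBreal : (μT B).toReal / (2 * Real.pi) = ((s : ℝ))⁻¹ := by
    rw [hμB, ENNReal.toReal_div, ENNReal.toReal_ofReal hpi.le, ENNReal.coe_toReal]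
    field_simp
  have hspos : (0 : ℝ) < s := by
    have : (0 : NNReal) < s := pos_iff_ne_zero.mpr hs0
    exact_mod_cast this
  refine ⟨by rw [hμBreal]; positivity, ?_⟩
  rw [hμBreal]
  have hinv : ENNReal.ofReal ((s : ℝ))⁻¹ = ((s : ENNReal))⁻¹ := by
    rw [ENNReal.ofReal_inv_of_pos hspos, ENNReal.ofReal_coe_nnreal]
  rw [hinv]
  change μT = ((s : ENNReal))⁻¹ • lam
  rw [huniq]
  refine Measure.ext fun A _ => ?_
  rw [Measure.smul_apply, Measure.smul_apply, smul_eq_mul, ENNReal.smul_def, smul_eq_mul,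
    ← mul_assoc, ENNReal.inv_mul_cancel hs0' ENNReal.coe_ne_top, one_mul]


/-- **`TorusHaarC`** (the case `h = 1`). -/
theorem torusHaarC842 : TorusHaarC := by
  intro u θ hθ μT hμT
  have hγ : zk u θ = 1 * zk u θ * (1 : GL (Fin 2) ℝ)⁻¹ := by simp
  obtain ⟨hpos, heq⟩ := torusHaar842 1 u θ hθ (zk u θ) hγ μT hμT
  refine ⟨_, hpos, ?_⟩
  have hι : torIotaH 1 u θ (zk u θ) hγ = torIota u θ := by
    funext p
    apply Subtype.ext
    rw [coe_torIotaH842]
    simp [torIota]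
  rw [hι] at heq
  exact heq

end Fermat.Agent.LT.T6.H842

end
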