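import Mathlib
import Fermat.Agent.LT.T6.H842.EllReal
import Fermat.Agent.LT.T6.H842.EllTorus
import Fermat.Agent.LT.T6.H842.EllPolar
import Fermat.Agent.LT.T6.H842.EllConj
import Fermat.Agent.LT.T6.H623.Profile

/-!
# Row LT, tower T6, leaf T6.20e.2d: `H634.EllRealC634` PROVED (helper842)

OFF-MAIN.  `ellRealC634_842 : H634.EllRealC634`, VERBATIM and UNCONDITIONAL: the elliptic orbital
integral of `f₀ + f₁` on `GL₂(ℝ)` at any `γ` with `disc γ < 0`, for every Haar measure `μ`,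
every Haar measure `μT` of the centraliser and every cut-off `β`,

`∫ (f₀ + f₁)(x⁻¹ γ x) β(x) dμ(x)
  = (4π c_I / λ) (ellDown g₀ θ + √2 cos θ · ellDown G₁ θ)`.

Route: `exists_conj842` (conjugation to `z_u k_θ`), left invariance of `μ`, `torusHaar842`
(`μT = λ · dv dα`), `polarRC842` (polar decomposition with the constant `c_I`), `ellReal842`
(unfolding), `H623.profile_test623` (profiles, helper623).
-/

set_option autoImplicit false

open scoped Matrix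
open MeasureTheory

noncomputable section

namespace Fermat.Agent.LT.T6.H842

open Fermat.Agent.LT.T6.H189 Fermat.Agent.LT.T6.H634 Fermat.Agent.LT.T6.H781

/-! ## 1. Integrals over the torus in coordinates -/

theorem integral_smul_map842 {T : Type*} [TopologicalSpace T] [MeasurableSpace T] [BorelSpace T]
    (ι : ℝ × ℝ → T) (hι : Continuous ι) (m : ℝ) (hm : 0 ≤ m) (G : T → ℝ) (hG : Continuous G) :
    ∫ t, G t ∂(ENNReal.ofReal m • Measure.map ι torMeas) = m * ∫ p, G (ι p) ∂torMeas := by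
  rw [integral_smul_measure, ENNReal.toReal_ofReal hm,
    integral_map hι.measurable.aemeasurable hG.aestronglyMeasurable, smul_eq_mul]

/-! ## 2. The phases -/

theorem det_ellY_pos842 (u θ τ : ℝ) :
    0 < ((ellY u θ τ : GL (Fin 2) ℝ) : Matrix (Fin 2) (Fin 2) ℝ).det := by
  rw [det_ellY842]; positivity

/-- `‖holPart (Y(u,θ,τ))‖ = e^u √((ρ + 1)/2)`, `ρ = 1 + 2 sin²θ sinh²τ`. -/
theorem norm_holPart_ellY842 (u θ τ : ℝ) :
    ‖holPart (ellY u θ τ)‖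
      = Real.exp u * Real.sqrt ((1 + 2 * Real.sin θ ^ 2 * Real.sinh τ ^ 2 + 1) / 2) := by
  rw [holPart_ellY842, norm_mul, Complex.norm_real, Real.norm_of_nonneg (Real.exp_pos u).le]
  congr 1
  rw [mul_comm Complex.I, Complex.norm_add_mul_I]
  congr 1
  have hc := Real.cosh_sq τ
  have hs := Real.sin_sq_add_cos_sq θ
  nlinarith [hc, hs]

theorem holPart_ellY_ne_zero842 (u θ τ : ℝ) : holPart (ellY u θ τ) ≠ 0 := by
  rw [← norm_pos_iff, norm_holPart_ellY842]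
  have : 0 < (1 + 2 * Real.sin θ ^ 2 * Real.sinh τ ^ 2 + 1) / 2 := by positivity
  exact mul_pos (Real.exp_pos u) (Real.sqrt_pos.mpr this)

/-- The sum of the two phases: for `n = ±1`,
`wtPhase (-n) (Y(u,θ,τ)) + wtPhase (-n) (Y(u,-θ,τ)) = 2 cos θ / √((ρ + 1)/2)`. -/
theorem wtPhase_sum842 (n : ℤ) (hn : n = 1 ∨ n = -1) (u θ τ : ℝ) :
    wtPhase (-n) (ellY u θ τ) + wtPhase (-n) (ellY u (-θ) τ)
      = ((2 * Real.cos θ /
          Real.sqrt ((1 + 2 * Real.sin θ ^ 2 * Real.sinh τ ^ 2 + 1) / 2) : ℝ) : ℂ) := by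
  set N : ℝ := Real.sqrt ((1 + 2 * Real.sin θ ^ 2 * Real.sinh τ ^ 2 + 1) / 2) with hN
  have hNpos : 0 < N := Real.sqrt_pos.mpr (by positivity)
  have hNsq : N ^ 2 = (1 + 2 * Real.sin θ ^ 2 * Real.sinh τ ^ 2 + 1) / 2 :=
    Real.sq_sqrt (by positivity)
  have he : (0 : ℝ) < Real.exp u := Real.exp_pos u
  have hn1 : ‖holPart (ellY u θ τ)‖ = Real.exp u * N := norm_holPart_ellY842 u θ τ
  have hn2 : ‖holPart (ellY u (-θ) τ)‖ = Real.exp u * N := by
    rw [norm_holPart_ellY842, Real.sin_neg, neg_sq]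
  have hA1 := holPart_ellY842 u θ τ
  have hA2 := holPart_ellY842 u (-θ) τ
  rw [Real.cos_neg, Real.sin_neg] at hA2
  set c : ℂ := (Real.cos θ : ℂ) with hc
  set s : ℂ := ((Real.cosh τ * Real.sin θ : ℝ) : ℂ) with hs
  have hs' : ((Real.cosh τ * -Real.sin θ : ℝ) : ℂ) = -s := by rw [hs]; push_cast; ring
  rw [hs'] at hA2
  have hcs : c ^ 2 + s ^ 2 = ((N ^ 2 : ℝ) : ℂ) := by
    rw [hNsq, hc, hs]
    have h1 := Real.cosh_sq τ
    have h2 := Real.sin_sq_add_cos_sq θ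
    have : Real.cos θ ^ 2 + (Real.cosh τ * Real.sin θ) ^ 2
        = (1 + 2 * Real.sin θ ^ 2 * Real.sinh τ ^ 2 + 1) / 2 := by nlinarith
    exact_mod_cast this
  have hE : (Real.exp u : ℂ) ≠ 0 := by exact_mod_cast he.ne'
  have hNc : ((N : ℝ) : ℂ) ≠ 0 := by exact_mod_cast hNpos.ne'
  have hp : c + Complex.I * s ≠ 0 := by
    intro h0
    apply holPart_ellY_ne_zero842 u θ τ
    rw [hA1, h0, mul_zero]
  have hq : c + Complex.I * -s ≠ 0 := by
    intro h0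
    apply holPart_ellY_ne_zero842 u (-θ) τ
    rw [holPart_ellY842, Real.cos_neg, Real.sin_neg, hs', ← hc, h0, mul_zero]
  have hprod : (c + Complex.I * s) * (c + Complex.I * -s) = ((N ^ 2 : ℝ) : ℂ) := by
    rw [← hcs]
    linear_combination (-(s ^ 2)) * Complex.I_sq
  have hR : ((2 * Real.cos θ / N : ℝ) : ℂ) = 2 * c / (N : ℂ) := by
    rw [hc]; simp only [Complex.ofReal_mul, Complex.ofReal_div, Complex.ofReal_ofNat]
  have hEN : ((Real.exp u * N : ℝ) : ℂ) = (Real.exp u : ℂ) * (N : ℂ) := by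
    simp only [Complex.ofReal_mul]
  have hN2 : ((N ^ 2 : ℝ) : ℂ) = (N : ℂ) ^ 2 := by simp only [Complex.ofReal_pow]
  rw [hN2] at hprod
  have h1 : (Real.exp u : ℂ) * (c + Complex.I * s) / ((Real.exp u : ℂ) * (N : ℂ))
      = (c + Complex.I * s) / (N : ℂ) := by
    field_simp
  have h2 : (Real.exp u : ℂ) * (c + Complex.I * -s) / ((Real.exp u : ℂ) * (N : ℂ))
      = (c + Complex.I * -s) / (N : ℂ) := by
    field_simp
  unfold wtPhase
  rw [hn1, hn2, hA1, hA2, hR, hEN, h1, h2]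
  rcases hn with rfl | rfl
  · -- n = 1
    rw [zpow_neg_one, zpow_neg_one, inv_div, inv_div]
    have e1 : (N : ℂ) / (c + Complex.I * s) = (c + Complex.I * -s) / (N : ℂ) := by
      rw [div_eq_div_iff hp hNc]
      linear_combination -hprod
    have e2 : (N : ℂ) / (c + Complex.I * -s) = (c + Complex.I * s) / (N : ℂ) := by
      rw [div_eq_div_iff hq hNc]
      linear_combination -hprod
    rw [e1, e2]
    field_simp
    ring
  · -- n = -1
    rw [neg_neg, zpow_one, zpow_one]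
    field_simp
    ring

/-! ## 3. The values on the conjugacy class -/

/-- Weight `0`: `f₀ (Y(u,θ,τ)) = g₀(ρ)`. -/
theorem f0_ellY842 (f₀ : GL (Fin 2) ℝ → ℂ) (h₀ : IsArchTestR 0 f₀) (u θ τ : ℝ) :
    f₀ (ellY u θ τ)
      = prof0_634 f₀ (Real.exp u ^ 2) (1 + 2 * Real.sin θ ^ 2 * Real.sinh τ ^ 2) := by
  have h := Fermat.Agent.LT.T6.H623.profile_test623 cartanRC189 0 f₀ h₀ (ellY u θ τ)
    (det_ellY_pos842 u θ τ)
  rw [h, det_ellY842, rhoR_ellY842]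
  unfold wtPhase
  rw [neg_zero, zpow_zero, one_mul]

/-- Weight `±1`: `f₁ (Y(u,θ,τ)) + f₁ (Y(u,-θ,τ)) = 2 √2 cos θ · G₁(ρ)`. -/
theorem f1_ellY842 (n : ℤ) (hn : n = 1 ∨ n = -1) (f₁ : GL (Fin 2) ℝ → ℂ)
    (h₁ : IsArchTestR n f₁) (u θ τ : ℝ) :
    f₁ (ellY u θ τ) + f₁ (ellY u (-θ) τ)
      = ((2 * (Real.sqrt 2 * Real.cos θ) : ℝ) : ℂ) *
          prof1_634 f₁ (Real.exp u ^ 2) (1 + 2 * Real.sin θ ^ 2 * Real.sinh τ ^ 2) := by
  have ha := Fermat.Agent.LT.T6.H623.profile_test623 cartanRC189 n f₁ h₁ (ellY u θ τ)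
    (det_ellY_pos842 u θ τ)
  have hb := Fermat.Agent.LT.T6.H623.profile_test623 cartanRC189 n f₁ h₁ (ellY u (-θ) τ)
    (det_ellY_pos842 u (-θ) τ)
  rw [det_ellY842, rhoR_ellY842] at ha hb
  rw [Real.sin_neg, neg_sq] at hb
  rw [ha, hb, ← add_mul, wtPhase_sum842 n hn u θ τ]
  set ρ : ℝ := 1 + 2 * Real.sin θ ^ 2 * Real.sinh τ ^ 2 with hρ
  have hρ1 : 0 < ρ + 1 := by positivity
  have hs2 : (0 : ℝ) < Real.sqrt 2 := Real.sqrt_pos.mpr (by norm_num)
  have hsr : 0 < Real.sqrt (ρ + 1) := Real.sqrt_pos.mpr hρ1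
  have hsq : Real.sqrt ((ρ + 1) / 2) = Real.sqrt (ρ + 1) / Real.sqrt 2 :=
    Real.sqrt_div hρ1.le 2
  have hreal : 2 * Real.cos θ / Real.sqrt ((ρ + 1) / 2)
      = 2 * (Real.sqrt 2 * Real.cos θ) / Real.sqrt (ρ + 1) := by
    rw [hsq]
    field_simp
  rw [hreal]
  unfold prof1_634
  have hne : ((Real.sqrt (ρ + 1) : ℝ) : ℂ) ≠ 0 := by exact_mod_cast hsr.ne'
  rw [Complex.ofReal_div]
  field_simp

/-! ## 4. The one-dimensional integral -/

theorem integrable_pair842 (f : GL (Fin 2) ℝ → ℂ) (hf : Continuous f) (hfs : HasCompactSupport f)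
    (u θ : ℝ) (hθ : Real.sin θ ≠ 0) :
    Integrable (fun τ : ℝ => (f (ellY u θ τ) + f (ellY u (-θ) τ)) * ((Real.sinh τ : ℝ) : ℂ))
      ((volume : Measure ℝ).restrict (Set.Ioi 0)) := by
  have hθ' : Real.sin (-θ) ≠ 0 := by rw [Real.sin_neg]; exact neg_ne_zero.mpr hθ
  have h1 : HasCompactSupport fun τ : ℝ => f (ellY u θ τ) + f (ellY u (-θ) τ) :=
    (hasCompactSupport_ellY842 f hfs u θ hθ).add (hasCompactSupport_ellY842 f hfs u (-θ) hθ')
  have hc : Continuous fun τ : ℝ =>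
      (f (ellY u θ τ) + f (ellY u (-θ) τ)) * ((Real.sinh τ : ℝ) : ℂ) :=
    ((hf.comp (continuous_ellY842 u θ)).add (hf.comp (continuous_ellY842 u (-θ)))).mul
      (Complex.continuous_ofReal.comp Real.continuous_sinh)
  exact (hc.integrable_of_hasCompactSupport h1.mul_right).restrict

/-- `∫_{τ>0} ((f₀+f₁)(Y(θ)) + (f₀+f₁)(Y(-θ))) sinh τ dτ
  = 2 (ellDown g₀ θ + √2 cos θ · ellDown G₁ θ)`. -/
theorem ellIntR_sum842 (n : ℤ) (hn : n = 1 ∨ n = -1) (f₀ f₁ : GL (Fin 2) ℝ → ℂ)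
    (h₀ : IsArchTestR 0 f₀) (h₁ : IsArchTestR n f₁) (u θ : ℝ) (hθ : Real.sin θ ≠ 0) :
    ellIntR (fun g => f₀ g + f₁ g) u θ
      = 2 * (ellDown (prof0_634 f₀ (Real.exp u ^ 2)) θ
          + ((Real.sqrt 2 * Real.cos θ : ℝ) : ℂ) *
              ellDown (prof1_634 f₁ (Real.exp u ^ 2)) θ) := by
  have hA : ∀ τ : ℝ, (f₀ (ellY u θ τ) + f₀ (ellY u (-θ) τ)) * ((Real.sinh τ : ℝ) : ℂ)
      = 2 * (prof0_634 f₀ (Real.exp u ^ 2) (1 + 2 * Real.sin θ ^ 2 * Real.sinh τ ^ 2) *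
          ((Real.sinh τ : ℝ) : ℂ)) := by
    intro τ
    have e1 := f0_ellY842 f₀ h₀ u θ τ
    have e2 := f0_ellY842 f₀ h₀ u (-θ) τ
    rw [Real.sin_neg, neg_sq] at e2
    rw [e1, e2]; ring
  have hB : ∀ τ : ℝ, (f₁ (ellY u θ τ) + f₁ (ellY u (-θ) τ)) * ((Real.sinh τ : ℝ) : ℂ)
      = ((2 * (Real.sqrt 2 * Real.cos θ) : ℝ) : ℂ) *
        (prof1_634 f₁ (Real.exp u ^ 2) (1 + 2 * Real.sin θ ^ 2 * Real.sinh τ ^ 2) *
          ((Real.sinh τ : ℝ) : ℂ)) := by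
    intro τ
    rw [f1_ellY842 n hn f₁ h₁ u θ τ]; ring
  have hAi := integrable_pair842 f₀ h₀.cont h₀.supp u θ hθ
  have hBi := integrable_pair842 f₁ h₁.cont h₁.supp u θ hθ
  unfold ellIntR ellDown
  have hsplit : (fun τ : ℝ => (f₀ (ellY u θ τ) + f₁ (ellY u θ τ) +
        (f₀ (ellY u (-θ) τ) + f₁ (ellY u (-θ) τ))) * ((Real.sinh τ : ℝ) : ℂ))
      = fun τ : ℝ => (f₀ (ellY u θ τ) + f₀ (ellY u (-θ) τ)) * ((Real.sinh τ : ℝ) : ℂ)
          + (f₁ (ellY u θ τ) + f₁ (ellY u (-θ) τ)) * ((Real.sinh τ : ℝ) : ℂ) := by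
    funext τ; ring
  rw [hsplit, integral_add hAi hBi]
  simp_rw [hA, hB]
  rw [integral_const_mul, integral_const_mul]
  push_cast
  ring

/-! ## 5. The cut-off functions -/

/-- Transport of the cut-off property from the centraliser of `γ = h (z_u k_θ) h⁻¹` to the
centraliser of `z_u k_θ`. -/
theorem cutoff_transport842 (h : GL (Fin 2) ℝ) (u θ : ℝ) (γ : GL (Fin 2) ℝ)
    (hγ : γ = h * zk u θ * h⁻¹) (lam : ℝ) (hlam : 0 ≤ lam)
    (μT : @Measure (twCentSub (MonoidHom.id (GL (Fin 2) ℝ)) γ) (borel _))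
    (hμT : μT = ENNReal.ofReal lam •
      @Measure.map _ _ _ (borel _) (torIotaH h u θ γ hγ) torMeas)
    (β : GL (Fin 2) ℝ → ℝ) (hβ : Continuous β) (x : GL (Fin 2) ℝ) :
    @integral _ _ _ _ (borel _)
        (ENNReal.ofReal lam • @Measure.map _ _ _ (borel _) (torIota u θ) torMeas)
        (fun t : twCentSub (MonoidHom.id (GL (Fin 2) ℝ)) (zk u θ) =>
          β (h * ((t : GL (Fin 2) ℝ) * x)))
      = @integral _ _ _ _ (borel _) μT
          (fun t : twCentSub (MonoidHom.id (GL (Fin 2) ℝ)) γ => β ((t : GL (Fin 2) ℝ) * (h * x)))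
      := by
  subst hμT
  let _ : MeasurableSpace (twCentSub (MonoidHom.id (GL (Fin 2) ℝ)) γ) := borel _
  have : BorelSpace (twCentSub (MonoidHom.id (GL (Fin 2) ℝ)) γ) := ⟨rfl⟩
  let _ : MeasurableSpace (twCentSub (MonoidHom.id (GL (Fin 2) ℝ)) (zk u θ)) := borel _
  have : BorelSpace (twCentSub (MonoidHom.id (GL (Fin 2) ℝ)) (zk u θ)) := ⟨rfl⟩
  have hι₀ : Continuous (torIota u θ) := by
    unfold torIota
    exact Continuous.subtype_mk continuous_zk842 _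
  have e1 := integral_smul_map842 (torIota u θ) hι₀ lam hlam
    (fun t : twCentSub (MonoidHom.id (GL (Fin 2) ℝ)) (zk u θ) =>
      β (h * ((t : GL (Fin 2) ℝ) * x)))
    (hβ.comp (continuous_const.mul (continuous_subtype_val.mul continuous_const)))
  have e2 := integral_smul_map842 (torIotaH h u θ γ hγ) (continuous_torIotaH842 h u θ γ hγ)
    lam hlam
    (fun t : twCentSub (MonoidHom.id (GL (Fin 2) ℝ)) γ => β ((t : GL (Fin 2) ℝ) * (h * x)))
    (hβ.comp (continuous_subtype_val.mul continuous_const))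
  rw [e1, e2]
  congr 1
  refine integral_congr_ae (Filter.Eventually.of_forall fun p => ?_)
  change β (h * (zk p.1 p.2 * x)) = β (h * zk p.1 p.2 * h⁻¹ * (h * x))
  congr 1
  group

/-! ## 6. The theorem -/

/-- A test function of weight `n` is invariant under conjugation by `SO(2)`. -/
theorem conj_inv_test842 (n : ℤ) (f : GL (Fin 2) ℝ → ℂ) (hf : IsArchTestR n f)
    (k g : GL (Fin 2) ℝ) (hk : InSO2 k) : f (k⁻¹ * g * k) = f g := by
  have h1 := hf.right k (k⁻¹ * g) hk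
  have h2 := hf.left k (k⁻¹ * g) hk
  rw [mul_inv_cancel_left] at h2
  rw [h1, h2]

/-- **T6.20e.2d = `H634.EllRealC634`, PROVED (final form of T6.27, real side).** -/
theorem ellRealC634_842 : EllRealC634 := by
  intro μ hμ n hn f₀ f₁ h₀ h₁ γ hdisc μT hμT β hβc hβ0 hβ1
  let _ : MeasurableSpace (GL (Fin 2) ℝ) := borel _
  have : BorelSpace (GL (Fin 2) ℝ) := ⟨rfl⟩
  have : Measure.IsHaarMeasure μ := hμ
  obtain ⟨h, hγ⟩ := exists_conj842 γ hdisc
  have hθ : Real.sin (thetaOf634 γ) ≠ 0 := sin_thetaOf_ne_zero634 γ hdisc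
  obtain ⟨-, -, -, hD⟩ := ell_data842 γ hdisc
  obtain ⟨hlam, hμTeq⟩ := torusHaar842 h _ _ hθ γ hγ μT hμT
  obtain ⟨hc, hpol⟩ := polarRC842 μ hμ
  have hnorm : IsTorNorm (Real.log (γ : Matrix (Fin 2) (Fin 2) ℝ).det / 2) (thetaOf634 γ)
      (ENNReal.ofReal (lamT634 γ μT) • @Measure.map _ _ _ (borel _)
        (torIota (Real.log (γ : Matrix (Fin 2) (Fin 2) ℝ).det / 2) (thetaOf634 γ)) torMeas)
      (lamT634 γ μT) := ⟨hlam, rfl⟩
  have hcut : IsCutoff (zk (Real.log (γ : Matrix (Fin 2) (Fin 2) ℝ).det / 2) (thetaOf634 γ))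
      (ENNReal.ofReal (lamT634 γ μT) • @Measure.map _ _ _ (borel _)
        (torIota (Real.log (γ : Matrix (Fin 2) (Fin 2) ℝ).det / 2) (thetaOf634 γ)) torMeas)
      (MonoidHom.id _) (fun y => β (h * y)) := by
    refine ⟨hβc.comp (continuous_const.mul continuous_id), fun x => hβ0 _, fun x => ?_⟩
    have := cutoff_transport842 h _ _ γ hγ (lamT634 γ μT) hlam.le μT hμTeq β hβc x
    rw [← hβ1 (h * x), ← this]
    rfl
  obtain ⟨-, hval⟩ := ellReal842 μ (cR634 μ) hpol _ _ hθ _ _ hnorm (fun g => f₀ g + f₁ g)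
    (h₀.cont.add h₁.cont) (h₀.supp.add h₁.supp)
    (fun k g hk => by
      rw [conj_inv_test842 0 f₀ h₀ k g hk, conj_inv_test842 n f₁ h₁ k g hk])
    (fun y => β (h * y)) hcut
  have htrans : ∫ x, (f₀ (x⁻¹ * γ * x) + f₁ (x⁻¹ * γ * x)) * (β x : ℂ) ∂μ
      = ∫ y, (fun g => f₀ g + f₁ g)
            (y⁻¹ * zk (Real.log (γ : Matrix (Fin 2) (Fin 2) ℝ).det / 2) (thetaOf634 γ) * y) *
          ((β (h * y) : ℝ) : ℂ) ∂μ := by
    have e := integral_mul_left_eq_self (μ := μ)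
      (fun x : GL (Fin 2) ℝ => (f₀ (x⁻¹ * γ * x) + f₁ (x⁻¹ * γ * x)) * (β x : ℂ)) h
    rw [← e]
    refine integral_congr_ae (Filter.Eventually.of_forall fun y => ?_)
    have hy : (h * y)⁻¹ * γ * (h * y)
        = y⁻¹ * zk (Real.log (γ : Matrix (Fin 2) (Fin 2) ℝ).det / 2) (thetaOf634 γ) * y := by
      conv_lhs => rw [hγ]
      group
    change (f₀ ((h * y)⁻¹ * γ * (h * y)) + f₁ ((h * y)⁻¹ * γ * (h * y))) * (β (h * y) : ℂ) = _
    rw [hy]
  change ∫ x, (f₀ (x⁻¹ * γ * x) + f₁ (x⁻¹ * γ * x)) * (β x : ℂ) ∂μ = _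
  rw [htrans, hval, ellIntR_sum842 n hn f₀ f₁ h₀ h₁ _ _ hθ, hD]
  have hl : ((lamT634 γ μT : ℝ) : ℂ) ≠ 0 := by exact_mod_cast hlam.ne'
  push_cast
  field_simp
  ring

end Fermat.Agent.LT.T6.H842

end
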